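import Mathlib

/-!
# The ladder lemma for elliptic sequences

Pure field algebra: if sequences `X, w : ℕ → K` satisfy
`(X k - X 1) * w k ^ 2 = - w (k+1) * w (k-1)` below a bound `N`, together with the symmetric
four-term relations coming from the x-only addition formulas, then
`(X a - X b) * w a ^ 2 * w b ^ 2 = - w (a+b) * w (a-b)` for `a + b ≤ N`; in particular `w`
satisfies the recurrences of a normalised elliptic divisibility sequence up to index `N`, and
hence coincides with Mathlib's `normEDS` there.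
-/

set_option autoImplicit false

namespace Fermat.Agent.Lib.DivPoly

section Ladder

variable {K : Type*} [Field K]

/-- One step of the ladder, as an identity between field elements. -/
lemma ladder_step (xa xam xap xb xbm xbp x1 wa wam wap wb wbm wbp ws wsm wt wtm : K)
    (hsym : (xa - xbp) * (xa - xbm) * (xb - x1) ^ 2 = (xb - xap) * (xb - xam) * (xa - x1) ^ 2)
    (hKm : (xa - xbm) * wa ^ 2 * wbm ^ 2 = -(wsm * wtm))
    (hKp : (xap - xb) * wap ^ 2 * wb ^ 2 = -(ws * wtm))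
    (hKq : (xam - xb) * wam ^ 2 * wb ^ 2 = -(wsm * wt))
    (hDa : (xa - x1) * wa ^ 2 = -(wap * wam))
    (hDb : (xb - x1) * wb ^ 2 = -(wbp * wbm))
    (hwbm : wbm ≠ 0) (hwbp : wbp ≠ 0) (hwam : wam ≠ 0) (hwap : wap ≠ 0)
    (hwsm : wsm ≠ 0) (hwtm : wtm ≠ 0) :
    (xa - xbp) * wa ^ 2 * wbp ^ 2 = -(ws * wt) := by
  have step : ((xa - xbp) * wa ^ 2 * wbp ^ 2) * ((xa - xbm) * wa ^ 2 * wbm ^ 2)
        * ((xb - x1) * wb ^ 2) ^ 2 * (wap ^ 2 * wam ^ 2)
      = ((xap - xb) * wap ^ 2 * wb ^ 2) * ((xam - xb) * wam ^ 2 * wb ^ 2)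
        * ((xa - x1) * wa ^ 2) ^ 2 * (wbp ^ 2 * wbm ^ 2) := by
    linear_combination (wa ^ 4 * wb ^ 4 * wbp ^ 2 * wbm ^ 2 * wap ^ 2 * wam ^ 2) * hsym
  rw [hKm, hDb, hKp, hKq, hDa] at step
  have hM : wsm * wtm * wbp ^ 2 * wbm ^ 2 * wap ^ 2 * wam ^ 2 ≠ 0 := by
    repeat' apply mul_ne_zero
    all_goals first | assumption | exact pow_ne_zero 2 ‹_›
  apply mul_left_cancel₀ hM
  linear_combination (-1 : K) * step

variable (N : ℕ) (X w : ℕ → K)

/-- The key relation `(X a - X b) * w a ^ 2 * w b ^ 2 = - w (a+b) * w (a-b)`. -/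
theorem ladder (w0 : w 0 = 0) (w1 : w 1 = 1)
    (wne : ∀ k, 1 ≤ k → k < N → w k ≠ 0)
    (hD : ∀ k, k + 2 ≤ N → (X (k + 1) - X 1) * w (k + 1) ^ 2 = -(w (k + 2) * w k))
    (hTwo : ∀ a, 1 ≤ a → a + 3 ≤ N →
      (X (a + 2) - X 1) * (X a - X 1) * (X (a + 1) - X 1) ^ 2 = -(w 2 ^ 2 * (X (a + 1) - X 2)))
    (hSym : ∀ a b, 1 ≤ b → b < a → a + b + 3 ≤ N →
      (X (a + 1) - X (b + 2)) * (X (a + 1) - X b) * (X (b + 1) - X 1) ^ 2 =
        (X (b + 1) - X (a + 2)) * (X (b + 1) - X a) * (X (a + 1) - X 1) ^ 2)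
    (b : ℕ) (hb : 1 ≤ b) :
    ∀ a c s : ℕ, a = b + c → s = a + b → s ≤ N →
      (X a - X b) * w a ^ 2 * w b ^ 2 = -(w s * w c) := by
  induction b using Nat.strong_induction_on with
  | _ b ih =>
    intro a c s ha hs hsN
    rcases b with _ | _ | _ | b
    · omega
    · -- b = 1
      obtain rfl : a = c + 1 := by omega
      obtain rfl : s = c + 2 := by omega
      have h := hD c (by omega)
      show (X (c + 1) - X 1) * w (c + 1) ^ 2 * w 1 ^ 2 = -(w (c + 2) * w c)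
      rw [w1]
      linear_combination h
    · -- b = 2
      rcases Nat.eq_zero_or_pos c with rfl | hc
      · obtain rfl : a = 2 := by omega
        show (X 2 - X 2) * w 2 ^ 2 * w 2 ^ 2 = -(w s * w 0)
        rw [w0]; ring
      obtain ⟨c, rfl⟩ : ∃ c', c = c' + 1 := ⟨c - 1, by omega⟩
      obtain rfl : a = c + 3 := by omega
      obtain rfl : s = c + 5 := by omega
      show (X (c + 3) - X 2) * w (c + 3) ^ 2 * w 2 ^ 2 = -(w (c + 5) * w (c + 1))
      have h2 : (X (c + 4) - X 1) * (X (c + 2) - X 1) * (X (c + 3) - X 1) ^ 2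
          = -(w 2 ^ 2 * (X (c + 3) - X 2)) := hTwo (c + 2) (by omega) (by omega)
      have hD1 : (X (c + 2) - X 1) * w (c + 2) ^ 2 = -(w (c + 3) * w (c + 1)) :=
        hD (c + 1) (by omega)
      have hD2 : (X (c + 3) - X 1) * w (c + 3) ^ 2 = -(w (c + 4) * w (c + 2)) :=
        hD (c + 2) (by omega)
      have hD3 : (X (c + 4) - X 1) * w (c + 4) ^ 2 = -(w (c + 5) * w (c + 3)) :=
        hD (c + 3) (by omega)
      have n2 := wne (c + 2) (by omega) (by omega)
      have n3 := wne (c + 3) (by omega) (by omega)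
      have n4 := wne (c + 4) (by omega) (by omega)
      have step : ((X (c + 4) - X 1) * w (c + 4) ^ 2) * ((X (c + 2) - X 1) * w (c + 2) ^ 2)
            * ((X (c + 3) - X 1) * w (c + 3) ^ 2) ^ 2
          = -((X (c + 3) - X 2) * w (c + 3) ^ 2 * w 2 ^ 2)
            * (w (c + 4) ^ 2 * w (c + 2) ^ 2 * w (c + 3) ^ 2) := by
        linear_combination (w (c + 4) ^ 2 * w (c + 2) ^ 2 * w (c + 3) ^ 4) * h2
      rw [hD1, hD2, hD3] at step
      have hM : w (c + 4) ^ 2 * w (c + 2) ^ 2 * w (c + 3) ^ 2 ≠ 0 := by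
        repeat' apply mul_ne_zero
        all_goals exact pow_ne_zero 2 ‹_›
      apply mul_left_cancel₀ hM
      linear_combination step
    · -- b + 3
      obtain ⟨a', rfl⟩ : ∃ a', a = a' + 1 := ⟨b + 2 + c, by omega⟩
      have hsym := hSym a' (b + 1) (by omega) (by omega) (by omega)
      have hKm := ih (b + 1) (by omega) (by omega) (a' + 1) (c + 2) (a' + b + 2) (by omega)
        (by omega) (by omega)
      have hKp := ih (b + 2) (by omega) (by omega) (a' + 2) (c + 2) s (by omega)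
        (by omega) (by omega)
      have hKq := ih (b + 2) (by omega) (by omega) a' c (a' + b + 2) (by omega)
        (by omega) (by omega)
      have hDa := hD a' (by omega)
      have hDb := hD (b + 1) (by omega)
      exact ladder_step (X (a' + 1)) (X a') (X (a' + 2)) (X (b + 2)) (X (b + 1)) (X (b + 3)) (X 1)
        (w (a' + 1)) (w a') (w (a' + 2)) (w (b + 2)) (w (b + 1)) (w (b + 3)) (w s)
        (w (a' + b + 2)) (w c) (w (c + 2)) hsym hKm hKp hKq hDa hDb
        (wne _ (by omega) (by omega)) (wne _ (by omega) (by omega)) (wne _ (by omega) (by omega))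
        (wne _ (by omega) (by omega)) (wne _ (by omega) (by omega)) (wne _ (by omega) (by omega))

/-- The odd recurrence of a normalised elliptic divisibility sequence. -/
theorem ladder_odd (w0 : w 0 = 0) (w1 : w 1 = 1)
    (wne : ∀ k, 1 ≤ k → k < N → w k ≠ 0)
    (hD : ∀ k, k + 2 ≤ N → (X (k + 1) - X 1) * w (k + 1) ^ 2 = -(w (k + 2) * w k))
    (hTwo : ∀ a, 1 ≤ a → a + 3 ≤ N →
      (X (a + 2) - X 1) * (X a - X 1) * (X (a + 1) - X 1) ^ 2 = -(w 2 ^ 2 * (X (a + 1) - X 2)))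
    (hSym : ∀ a b, 1 ≤ b → b < a → a + b + 3 ≤ N →
      (X (a + 1) - X (b + 2)) * (X (a + 1) - X b) * (X (b + 1) - X 1) ^ 2 =
        (X (b + 1) - X (a + 2)) * (X (b + 1) - X a) * (X (a + 1) - X 1) ^ 2)
    (k : ℕ) (hk : 2 * k + 3 ≤ N) :
    w (2 * k + 3) = w (k + 3) * w (k + 1) ^ 3 - w k * w (k + 2) ^ 3 := by
  have hK := ladder N X w w0 w1 wne hD hTwo hSym (k + 1) (by omega) (k + 2) 1 (2 * k + 3)
    (by omega) (by omega) hk
  have hD1 : (X (k + 2) - X 1) * w (k + 2) ^ 2 = -(w (k + 3) * w (k + 1)) := hD (k + 1) (by omega)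
  have hD0 : (X (k + 1) - X 1) * w (k + 1) ^ 2 = -(w (k + 2) * w k) := hD k (by omega)
  rw [w1] at hK
  linear_combination hK - w (k + 1) ^ 2 * hD1 + w (k + 2) ^ 2 * hD0

/-- The even recurrence of a normalised elliptic divisibility sequence. -/
theorem ladder_even (w0 : w 0 = 0) (w1 : w 1 = 1)
    (wne : ∀ k, 1 ≤ k → k < N → w k ≠ 0)
    (hD : ∀ k, k + 2 ≤ N → (X (k + 1) - X 1) * w (k + 1) ^ 2 = -(w (k + 2) * w k))
    (hTwo : ∀ a, 1 ≤ a → a + 3 ≤ N →
      (X (a + 2) - X 1) * (X a - X 1) * (X (a + 1) - X 1) ^ 2 = -(w 2 ^ 2 * (X (a + 1) - X 2)))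
    (hSym : ∀ a b, 1 ≤ b → b < a → a + b + 3 ≤ N →
      (X (a + 1) - X (b + 2)) * (X (a + 1) - X b) * (X (b + 1) - X 1) ^ 2 =
        (X (b + 1) - X (a + 2)) * (X (b + 1) - X a) * (X (a + 1) - X 1) ^ 2)
    (k : ℕ) (hk : 2 * k + 4 ≤ N) :
    w (2 * k + 4) * w 2 =
      w (k + 1) ^ 2 * w (k + 2) * w (k + 4) - w k * w (k + 2) * w (k + 3) ^ 2 := by
  have hK := ladder N X w w0 w1 wne hD hTwo hSym (k + 1) (by omega) (k + 3) 2 (2 * k + 4)
    (by omega) (by omega) hk
  have hD2 : (X (k + 3) - X 1) * w (k + 3) ^ 2 = -(w (k + 4) * w (k + 2)) := hD (k + 2) (by omega)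
  have hD0 : (X (k + 1) - X 1) * w (k + 1) ^ 2 = -(w (k + 2) * w k) := hD k (by omega)
  linear_combination hK - w (k + 1) ^ 2 * hD2 + w (k + 3) ^ 2 * hD0

/-- A sequence satisfying the two recurrences up to index `N` with the right initial values
coincides with Mathlib's `normEDS` up to index `N`. -/
theorem eq_normEDS_of_rec (b c d : K)
    (w0 : w 0 = 0) (w1 : w 1 = 1) (w2 : w 2 = b) (w3 : 3 ≤ N → w 3 = c)
    (w4 : 4 ≤ N → w 4 = d * b) (hb : 3 ≤ N → b ≠ 0)
    (hodd : ∀ k, 2 * k + 3 ≤ N → w (2 * k + 3) = w (k + 3) * w (k + 1) ^ 3 - w k * w (k + 2) ^ 3)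
    (heven : ∀ k, 2 * k + 4 ≤ N → w (2 * k + 4) * w 2 =
      w (k + 1) ^ 2 * w (k + 2) * w (k + 4) - w k * w (k + 2) * w (k + 3) ^ 2) :
    ∀ n : ℕ, n ≤ N → w n = normEDS b c d (n : ℤ) := by
  intro n
  induction n using Nat.strong_induction_on with
  | _ n ih =>
    intro hn
    rcases n with _ | _ | _ | _ | _ | n
    · simp [w0]
    · simp [w1]
    · simpa using w2
    · simpa using w3 hn
    · simpa using w4 hn
    · rcases Nat.even_or_odd' (n + 5) with ⟨m, hm | hm⟩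
      · -- even
        obtain ⟨k, rfl⟩ : ∃ k, m = k + 2 := ⟨m - 2, by omega⟩
        have hn' : n + 5 = 2 * k + 4 := by omega
        have hk : 1 ≤ k := by omega
        rw [show n + 1 + 1 + 1 + 1 + 1 = 2 * k + 4 by omega] at hn ih ⊢
        have h := heven k hn
        rw [w2, ih (k + 1) (by omega) (by omega), ih (k + 2) (by omega) (by omega),
          ih (k + 4) (by omega) (by omega), ih k (by omega) (by omega),
          ih (k + 3) (by omega) (by omega)] at h
        have e1 : ((2 * k + 4 : ℕ) : ℤ) = 2 * ((k : ℤ) + 2) := by push_cast; ring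
        have e2 : ((k + 1 : ℕ) : ℤ) = (k : ℤ) + 2 - 1 := by push_cast; ring
        have e3 : ((k + 2 : ℕ) : ℤ) = (k : ℤ) + 2 := by push_cast; ring
        have e4 : ((k + 4 : ℕ) : ℤ) = (k : ℤ) + 2 + 2 := by push_cast; ring
        have e5 : ((k : ℕ) : ℤ) = (k : ℤ) + 2 - 2 := by ring
        have e6 : ((k + 3 : ℕ) : ℤ) = (k : ℤ) + 2 + 1 := by push_cast; ring
        rw [e5, e2, e3, e4, e6, ← normEDS_even] at h
        rw [e1]
        exact mul_right_cancel₀ (hb (by omega)) h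
      · -- odd
        obtain ⟨k, rfl⟩ : ∃ k, m = k + 1 := ⟨m - 1, by omega⟩
        have hk : 1 ≤ k := by omega
        rw [show n + 1 + 1 + 1 + 1 + 1 = 2 * k + 3 by omega] at hn ih ⊢
        rw [hodd k hn, ih (k + 3) (by omega) (by omega), ih (k + 1) (by omega) (by omega),
          ih k (by omega) (by omega), ih (k + 2) (by omega) (by omega)]
        have e1 : ((2 * k + 3 : ℕ) : ℤ) = 2 * ((k : ℤ) + 1) + 1 := by push_cast; ring
        have e2 : ((k + 3 : ℕ) : ℤ) = (k : ℤ) + 1 + 2 := by push_cast; ring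
        have e3 : ((k + 1 : ℕ) : ℤ) = (k : ℤ) + 1 := by push_cast; ring
        have e4 : ((k : ℕ) : ℤ) = (k : ℤ) + 1 - 1 := by ring
        have e5 : ((k + 2 : ℕ) : ℤ) = (k : ℤ) + 1 + 1 := by push_cast; ring
        rw [e4, e1, e2, e3, e5, ← normEDS_odd]

end Ladder

end Fermat.Agent.Lib.DivPoly
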