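import Mathlib

/-!
# x-only addition formulas on a Weierstrass curve

For nonzero points `A`, `B` of a Weierstrass curve over a field with distinct abscissas we prove
the classical formulas for `x(A+B) + x(A-B)` and `x(A+B) * x(A-B)` in terms of the abscissas of
`A` and `B` only, the doubling formula, and a few identities between the resulting forms.
Everything is stated for Mathlib's `WeierstrassCurve.Affine.Point`.
-/

set_option autoImplicit false

namespace Fermat.Agent.Lib.DivPoly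

open WeierstrassCurve WeierstrassCurve.Affine

section Forms

variable {R : Type*} [CommRing R] (W : WeierstrassCurve R)

/-- The numerator of `x(A+B) + x(A-B)` as a form in the abscissas `u = x(A)`, `v = x(B)`. -/
def sumForm (u v : R) : R :=
  2 * u * v * (u + v) + W.b₂ * u * v + W.b₄ * (u + v) + W.b₆

/-- The numerator of `x(A+B) * x(A-B)` as a form in the abscissas `u = x(A)`, `v = x(B)`. -/
def prodForm (u v : R) : R :=
  u ^ 2 * v ^ 2 - W.b₄ * u * v - W.b₆ * (u + v) - W.b₈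

/-- The symmetric three-variable form: numerator of `(x(A+B) - c) * (x(A-B) - c)`. -/
def triForm (c u v : R) : R :=
  c ^ 2 * (u - v) ^ 2 - c * sumForm W u v + prodForm W u v

/-- The cubic `4x³ + b₂x² + 2b₄x + b₆` (the value of `Ψ₂Sq`). -/
def dblDen (x : R) : R := 4 * x ^ 3 + W.b₂ * x ^ 2 + 2 * W.b₄ * x + W.b₆

/-- The quartic `x⁴ - b₄x² - 2b₆x - b₈` (the value of `Φ₂`). -/
def dblNum (x : R) : R := x ^ 4 - W.b₄ * x ^ 2 - 2 * W.b₆ * x - W.b₈

/-- The quartic `3x⁴ + b₂x³ + 3b₄x² + 3b₆x + b₈` (the value of `Ψ₃`). -/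
def triDen (x : R) : R := 3 * x ^ 4 + W.b₂ * x ^ 3 + 3 * W.b₄ * x ^ 2 + 3 * W.b₆ * x + W.b₈

/-- The sextic value of `preΨ₄`. -/
def quadDen (x : R) : R :=
  2 * x ^ 6 + W.b₂ * x ^ 5 + 5 * W.b₄ * x ^ 4 + 10 * W.b₆ * x ^ 3 + 10 * W.b₈ * x ^ 2 +
    (W.b₂ * W.b₈ - W.b₄ * W.b₆) * x + (W.b₄ * W.b₈ - W.b₆ ^ 2)

lemma sumForm_comm (u v : R) : sumForm W u v = sumForm W v u := by
  simp only [sumForm]; ring

lemma prodForm_comm (u v : R) : prodForm W u v = prodForm W v u := by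
  simp only [prodForm]; ring

lemma triForm_swap₂₃ (c u v : R) : triForm W c u v = triForm W c v u := by
  simp only [triForm, sumForm, prodForm]; ring

lemma triForm_swap₁₂ (c u v : R) : triForm W c u v = triForm W u c v := by
  simp only [triForm, sumForm, prodForm]; ring

lemma triForm_swap₁₃ (c u v : R) : triForm W c u v = triForm W v u c := by
  simp only [triForm, sumForm, prodForm]; ring

lemma sumForm_self (x : R) : sumForm W x x = dblDen W x := by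
  simp only [sumForm, dblDen]; ring

lemma prodForm_self (x : R) : prodForm W x x = dblNum W x := by
  simp only [prodForm, dblNum]; ring

lemma triForm_self (u x : R) : triForm W u x x = dblNum W x - u * dblDen W x := by
  simp only [triForm, sumForm, prodForm, dblNum, dblDen]; ring

lemma triDen_eq (x : R) : triDen W x = x * dblDen W x - dblNum W x := by
  simp only [triDen, dblNum, dblDen]; ring

lemma quadDen_eq (x : R) :
    quadDen W x = (6 * x ^ 2 + W.b₂ * x + W.b₄) * triDen W x - dblDen W x ^ 2 := by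
  have hb := W.b_relation
  simp only [quadDen, triDen, dblDen]
  linear_combination (x ^ 2) * hb

lemma sumForm_add (x e : R) :
    sumForm W (x + e) x = dblDen W x + (6 * x ^ 2 + W.b₂ * x + W.b₄) * e + 2 * x * e ^ 2 := by
  simp only [sumForm, dblDen]; ring

open Polynomial in
lemma eval_Ψ₂Sq (x : R) : (W.Ψ₂Sq).eval x = dblDen W x := by
  simp only [Ψ₂Sq, dblDen, eval_add, eval_mul, eval_pow, eval_C, eval_X]

open Polynomial in
lemma eval_Ψ₃ (x : R) : (W.Ψ₃).eval x = triDen W x := by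
  simp only [Ψ₃, triDen, eval_add, eval_mul, eval_pow, eval_C, eval_X, eval_ofNat]

open Polynomial in
lemma eval_preΨ₄ (x : R) : (W.preΨ₄).eval x = quadDen W x := by
  simp only [preΨ₄, quadDen, eval_add, eval_mul, eval_pow, eval_C, eval_X, eval_ofNat]

open Polynomial in
lemma eval_Φ_two (x : R) : (W.Φ 2).eval x = dblNum W x := by
  simp only [Φ_two, dblNum, eval_sub, eval_mul, eval_pow, eval_C, eval_X]

end Forms

section Curve

variable {F : Type*} [Field F] (E : WeierstrassCurve.Affine F)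

/-- The x-coordinate of a point (junk value `0` at infinity). -/
def xc : E.Point → F
  | .zero => 0
  | .some x _ _ => x

@[simp] lemma xc_some {x y : F} (h : E.Nonsingular x y) : xc E (Point.some x y h) = x := rfl

lemma xc_neg (P : E.Point) : xc E (-P) = xc E P := by
  cases P <;> rfl

lemma xc_eq_iff {P Q : E.Point} (hP : P ≠ 0) (hQ : Q ≠ 0) :
    xc E P = xc E Q ↔ P = Q ∨ P = -Q := by
  rcases P with _ | ⟨x₁, y₁, h₁⟩
  · exact absurd rfl hP
  rcases Q with _ | ⟨x₂, y₂, h₂⟩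
  · exact absurd rfl hQ
  exact Point.X_eq_iff

/-- On the curve, `(2y + a₁x + a₃)² = 4x³ + b₂x² + 2b₄x + b₆`. -/
lemma psi_sq {x y : F} (h : E.Equation x y) : (y - E.negY x y) ^ 2 = dblDen E x := by
  rw [equation_iff] at h
  simp only [dblDen, negY, WeierstrassCurve.b₂, WeierstrassCurve.b₄, WeierstrassCurve.b₆]
  linear_combination 4 * h

/-- At a nonsingular point, the numerator and the denominator of the duplication formula do not
vanish simultaneously. -/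
lemma dbl_not_both_zero {x y : F} (h : E.Nonsingular x y) :
    ¬ (dblDen E x = 0 ∧ dblNum E x = 0) := by
  rintro ⟨hM, hN⟩
  obtain ⟨heq, hns⟩ := (nonsingular_iff' _ _).mp h
  have hpsi : 2 * y + E.a₁ * x + E.a₃ = 0 := by
    have h2 : (2 * y + E.a₁ * x + E.a₃) ^ 2 = 0 := by
      have := psi_sq E heq
      rw [hM] at this
      rw [← this]; simp only [negY]; ring
    exact pow_eq_zero_iff (n := 2) (by norm_num) |>.mp h2
  have hL : E.a₁ * y - (3 * x ^ 2 + 2 * E.a₂ * x + E.a₄) = 0 := by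
    have h2 : (E.a₁ * y - (3 * x ^ 2 + 2 * E.a₂ * x + E.a₄)) ^ 2 = 0 := by
      rw [equation_iff] at heq
      simp only [dblNum, WeierstrassCurve.b₄, WeierstrassCurve.b₆, WeierstrassCurve.b₈] at hN
      linear_combination hN + (E.a₁ * (E.a₁ * y - (3 * x ^ 2 + 2 * E.a₂ * x + E.a₄))
        + (E.a₂ + 2 * x) * (2 * y + E.a₁ * x + E.a₃)) * hpsi - (E.a₁ ^ 2 + 4 * E.a₂ + 8 * x) * heq
    exact pow_eq_zero_iff (n := 2) (by norm_num) |>.mp h2
  rcases hns with hns | hns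
  · exact hns hL
  · exact hns hpsi

variable [DecidableEq F]

lemma two_nsmul_eq_zero_iff {x y : F} (h : E.Nonsingular x y) :
    (2 : ℕ) • Point.some x y h = 0 ↔ dblDen E x = 0 := by
  rw [two_nsmul, ← psi_sq E h.1]
  constructor
  · intro h0
    by_contra hne
    have hy : y ≠ E.negY x y := fun hy => hne (by rw [← hy, sub_self]; ring)
    rw [Point.add_self_of_Y_ne hy] at h0
    exact Point.some_ne_zero _ h0
  · intro h0
    have hy : y = E.negY x y := by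
      have := pow_eq_zero_iff (n := 2) (by norm_num) |>.mp h0
      exact sub_eq_zero.mp this
    exact Point.add_self_of_Y_eq hy

/-- The duplication formula: `x(2P) * Ψ₂Sq(x) = Φ₂(x)` when `2P ≠ 0`. -/
lemma xc_two_nsmul {x y : F} (h : E.Nonsingular x y) (h2 : (2 : ℕ) • Point.some x y h ≠ 0) :
    xc E ((2 : ℕ) • Point.some x y h) * dblDen E x = dblNum E x := by
  have hM : dblDen E x ≠ 0 := fun h0 => h2 ((two_nsmul_eq_zero_iff E h).mpr h0)
  have hpsi := psi_sq E h.1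
  have hy : y ≠ E.negY x y := by
    intro hy
    apply hM
    rw [← hpsi, ← hy, sub_self]; ring
  have hne : y - E.negY x y ≠ 0 := sub_ne_zero.mpr hy
  rw [two_nsmul, Point.add_self_of_Y_ne hy, xc_some, slope_of_Y_ne rfl hy, ← hpsi]
  have heq := (equation_iff _ _).mp h.1
  simp only [addX, dblNum, WeierstrassCurve.b₄, WeierstrassCurve.b₆, WeierstrassCurve.b₈]
  field_simp
  simp only [negY]
  linear_combination (-(8 * x + E.a₁ ^ 2 + 4 * E.a₂)) * heq

/-- The x-only sum formula. -/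
theorem xc_add_add_xc_sub {A B : E.Point} (hA : A ≠ 0) (hB : B ≠ 0) (hx : xc E A ≠ xc E B) :
    (xc E (A + B) + xc E (A - B)) * (xc E A - xc E B) ^ 2 = sumForm E (xc E A) (xc E B) := by
  rcases A with _ | ⟨x₁, y₁, h₁⟩
  · exact absurd rfl hA
  rcases B with _ | ⟨x₂, y₂, h₂⟩
  · exact absurd rfl hB
  simp only [xc_some] at hx ⊢
  rw [sub_eq_add_neg, Point.neg_some, Point.add_of_X_ne hx, Point.add_of_X_ne hx, xc_some, xc_some,
    slope_of_X_ne hx, slope_of_X_ne hx]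
  have hd : x₁ - x₂ ≠ 0 := sub_ne_zero.mpr hx
  have e₁ := (equation_iff _ _).mp h₁.1
  have e₂ := (equation_iff _ _).mp h₂.1
  obtain ⟨l, hl⟩ : ∃ l, l = (y₁ - y₂) / (x₁ - x₂) := ⟨_, rfl⟩
  obtain ⟨m, hm⟩ : ∃ m, m = (y₁ - E.negY x₂ y₂) / (x₁ - x₂) := ⟨_, rfl⟩
  rw [← hl, ← hm]
  rw [eq_div_iff hd] at hl hm
  simp only [addX, sumForm, negY, WeierstrassCurve.b₂, WeierstrassCurve.b₄,
    WeierstrassCurve.b₆] at hm ⊢
  linear_combination (l * (x₁ - x₂) + (y₁ - y₂) + E.a₁ * (x₁ - x₂)) * hl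
    + (m * (x₁ - x₂) + (y₁ + y₂ + E.a₁ * x₂ + E.a₃) + E.a₁ * (x₁ - x₂)) * hm + 2 * e₁ + 2 * e₂

/-- The x-only product formula. -/
theorem xc_add_mul_xc_sub {A B : E.Point} (hA : A ≠ 0) (hB : B ≠ 0) (hx : xc E A ≠ xc E B) :
    xc E (A + B) * xc E (A - B) * (xc E A - xc E B) ^ 2 = prodForm E (xc E A) (xc E B) := by
  rcases A with _ | ⟨x₁, y₁, h₁⟩
  · exact absurd rfl hA
  rcases B with _ | ⟨x₂, y₂, h₂⟩
  · exact absurd rfl hB
  simp only [xc_some] at hx ⊢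
  rw [sub_eq_add_neg, Point.neg_some, Point.add_of_X_ne hx, Point.add_of_X_ne hx, xc_some, xc_some,
    slope_of_X_ne hx, slope_of_X_ne hx]
  have hd : x₁ - x₂ ≠ 0 := sub_ne_zero.mpr hx
  have e₁ := (equation_iff _ _).mp h₁.1
  have e₂ := (equation_iff _ _).mp h₂.1
  obtain ⟨l, hl⟩ : ∃ l, l = (y₁ - y₂) / (x₁ - x₂) := ⟨_, rfl⟩
  obtain ⟨m, hm⟩ : ∃ m, m = (y₁ - E.negY x₂ y₂) / (x₁ - x₂) := ⟨_, rfl⟩
  rw [← hl, ← hm]
  rw [eq_div_iff hd] at hl hm
  apply mul_right_cancel₀ (pow_ne_zero 2 hd)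
  simp only [addX, prodForm, negY, WeierstrassCurve.b₄, WeierstrassCurve.b₆,
    WeierstrassCurve.b₈] at hm ⊢
  linear_combination (l * (x₁ - x₂) + (y₁ - y₂) + E.a₁ * (x₁ - x₂))
      * ((m ^ 2 + E.a₁ * m - E.a₂ - x₁ - x₂) * (x₁ - x₂) ^ 2) * hl
    + ((y₁ - y₂) ^ 2 + E.a₁ * (y₁ - y₂) * (x₁ - x₂) - (E.a₂ + x₁ + x₂) * (x₁ - x₂) ^ 2)
      * (m * (x₁ - x₂) + (y₁ + y₂ + E.a₁ * x₂ + E.a₃) + E.a₁ * (x₁ - x₂)) * hm
    + (y₁ ^ 2 + y₁ * x₁ * E.a₁ + y₁ * E.a₃ + (-2) * y₂ ^ 2 + (-2) * y₂ * x₂ * E.a₁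
      + (-2) * y₂ * E.a₃ + (-1) * x₁ ^ 3 + 2 * x₁ ^ 2 * x₂ + (-1) * x₁ ^ 2 * E.a₂
      + 2 * x₁ * x₂ ^ 2 + x₁ * x₂ * E.a₁ ^ 2 + 4 * x₁ * x₂ * E.a₂ + x₁ * E.a₁ * E.a₃ + x₁ * E.a₄
      + (-2) * x₂ ^ 3 + (-1) * x₂ ^ 2 * E.a₁ ^ 2 + (-2) * x₂ ^ 2 * E.a₂
      + (-1) * x₂ * E.a₁ * E.a₃ + E.a₆) * e₁
    + (y₂ ^ 2 + y₂ * x₂ * E.a₁ + y₂ * E.a₃ + (-4) * x₁ ^ 3 + 2 * x₁ ^ 2 * x₂
      + (-1) * x₁ ^ 2 * E.a₁ ^ 2 + (-4) * x₁ ^ 2 * E.a₂ + 2 * x₁ * x₂ ^ 2 + x₁ * x₂ * E.a₁ ^ 2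
      + 4 * x₁ * x₂ * E.a₂ + (-1) * x₁ * E.a₁ * E.a₃ + (-2) * x₁ * E.a₄ + (-1) * x₂ ^ 3
      + (-1) * x₂ ^ 2 * E.a₂ + x₂ * E.a₁ * E.a₃ + x₂ * E.a₄ + (-1) * E.a₆) * e₂

/-- The combined three-variable formula
`(x(A+B) - c) * (x(A-B) - c) * (x(A) - x(B))² = triForm c x(A) x(B)`. -/
theorem xc_add_sub_triForm {A B : E.Point} (hA : A ≠ 0) (hB : B ≠ 0) (hx : xc E A ≠ xc E B)
    (c : F) :
    (xc E (A + B) - c) * (xc E (A - B) - c) * (xc E A - xc E B) ^ 2
      = triForm E c (xc E A) (xc E B) := by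
  have h1 := xc_add_add_xc_sub E hA hB hx
  have h2 := xc_add_mul_xc_sub E hA hB hx
  simp only [triForm]
  linear_combination h2 - c * h1

end Curve

end Fermat.Agent.Lib.DivPoly
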