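import Mathlib
import Fermat.Agent.Lib.DivPoly.XAdd
import Fermat.Agent.Lib.DivPoly.Ladder

/-!
# Division polynomials below the order of a point

Let `P = (x, y)` be a nonsingular point of a Weierstrass curve over a field such that `k • P ≠ 0`
for `0 < k < N`.  We show that the values `ψ_k(P)` of the division polynomials (computed by
Mathlib's `normEDS`) satisfy `ψ_k(P) ≠ 0` and `(x(kP) - x) ψ_k(P)² = -ψ_{k+1}(P) ψ_{k-1}(P)` for
`0 < k < N`, and that `ψ_N(P) = 0` if `N • P = 0`.
-/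

set_option autoImplicit false

namespace Fermat.Agent.Lib.DivPoly

open WeierstrassCurve WeierstrassCurve.Affine

section BelowOrder

variable {F : Type*} [Field F]

/-- The auxiliary sequence defined by `w (k+1) = -(X k - X 1) * w k ^ 2 / w (k-1)`. -/
noncomputable def wSeq (X : ℕ → F) (p : F) : ℕ → F
  | 0 => 0
  | 1 => 1
  | 2 => p
  | (k + 3) => -((X (k + 2) - X 1) * wSeq X p (k + 2) ^ 2) / wSeq X p (k + 1)

lemma wSeq_zero (X : ℕ → F) (p : F) : wSeq X p 0 = 0 := by rw [wSeq]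
lemma wSeq_one (X : ℕ → F) (p : F) : wSeq X p 1 = 1 := by rw [wSeq]
lemma wSeq_two (X : ℕ → F) (p : F) : wSeq X p 2 = p := by rw [wSeq]
lemma wSeq_add_three (X : ℕ → F) (p : F) (k : ℕ) :
    wSeq X p (k + 3) = -((X (k + 2) - X 1) * wSeq X p (k + 2) ^ 2) / wSeq X p (k + 1) := by
  rw [wSeq]

variable (E : WeierstrassCurve.Affine F)

/-- The value of the division polynomial `ψ_n` at the point `(x, y)`. -/
noncomputable def psiVal (x y : F) (n : ℤ) : F :=
  normEDS (y - E.negY x y) (triDen E x) (quadDen E x) n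

open Polynomial in
lemma eval_preΨ {R : Type*} [CommRing R] (W : WeierstrassCurve R) (x : R) (n : ℤ) :
    (W.preΨ n).eval x = preNormEDS (dblDen W x ^ 2) (triDen W x) (quadDen W x) n := by
  rw [preΨ]
  have := map_preNormEDS (evalRingHom x) (W.Ψ₂Sq ^ 2) W.Ψ₃ W.preΨ₄ n
  simp only [coe_evalRingHom, eval_pow, eval_Ψ₂Sq, eval_Ψ₃, eval_preΨ₄] at this
  exact this

open Polynomial in
lemma psiVal_eq {x y : F} (heq : E.Equation x y) (n : ℤ) :
    psiVal E x y n = (E.preΨ n).eval x * (if Even n then (y - E.negY x y) else 1) := by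
  rw [psiVal, normEDS, eval_preΨ, ← psi_sq E heq]
  congr 2
  ring

open Polynomial in
/-- `ψ_n(P)² = ΨSq_n(x(P))`. -/
lemma psiVal_sq {x y : F} (heq : E.Equation x y) (n : ℤ) :
    psiVal E x y n ^ 2 = (E.ΨSq n).eval x := by
  rw [psiVal_eq E heq, ΨSq, eval_mul, eval_pow, mul_pow]
  congr 1
  split_ifs with hn
  · rw [psi_sq E heq, eval_Ψ₂Sq]
  · simp

open Polynomial in
/-- `Φ_n(x(P)) = x ψ_n(P)² - ψ_{n+1}(P) ψ_{n-1}(P)`. -/
lemma eval_Φ_eq {x y : F} (heq : E.Equation x y) (n : ℤ) :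
    (E.Φ n).eval x = x * psiVal E x y n ^ 2 - psiVal E x y (n + 1) * psiVal E x y (n - 1) := by
  rw [psiVal_sq E heq, psiVal_eq E heq (n + 1), psiVal_eq E heq (n - 1), WeierstrassCurve.Φ]
  simp only [eval_sub, eval_mul, eval_X, Int.even_add_one, Int.even_sub_one]
  split_ifs with hn
  · simp
  · simp only [eval_Ψ₂Sq, ← psi_sq E heq]
    ring

variable [DecidableEq F]

lemma xc_nsmul_ne {P : E.Point} {N : ℕ} (hN : ∀ k, 0 < k → k < N → k • P ≠ 0) {k : ℕ}
    (hk : 2 ≤ k) (hkN : k + 1 < N) : xc E (k • P) ≠ xc E P := by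
  intro heq
  have hP : P ≠ 0 := by simpa using hN 1 (by omega) (by omega)
  have hkP := hN k (by omega) (by omega)
  rcases (xc_eq_iff E hkP hP).mp heq with h1 | h1
  · apply hN (k - 1) (by omega) (by omega)
    have : k • P = (k - 1) • P + P := by
      rw [← succ_nsmul]; congr 1; omega
    rw [this] at h1
    exact add_eq_right.mp h1
  · apply hN (k + 1) (by omega) hkN
    rw [succ_nsmul, h1, neg_add_cancel]

lemma xc_nsmul_triForm {P : E.Point} (hP : P ≠ 0) {j : ℕ} (hj : (j + 1) • P ≠ 0)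
    (hx : xc E ((j + 1) • P) ≠ xc E P) (c : F) :
    (xc E ((j + 2) • P) - c) * (xc E (j • P) - c) * (xc E ((j + 1) • P) - xc E P) ^ 2
      = triForm E c (xc E ((j + 1) • P)) (xc E P) := by
  have := xc_add_sub_triForm E hj hP hx c
  rwa [← succ_nsmul, show (j + 1) • P - P = j • P by rw [succ_nsmul]; abel] at this

lemma xc_nsmul_sumForm {P : E.Point} (hP : P ≠ 0) {j : ℕ} (hj : (j + 1) • P ≠ 0)
    (hx : xc E ((j + 1) • P) ≠ xc E P) :
    (xc E ((j + 2) • P) + xc E (j • P)) * (xc E ((j + 1) • P) - xc E P) ^ 2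
      = sumForm E (xc E ((j + 1) • P)) (xc E P) := by
  have := xc_add_add_xc_sub E hj hP hx
  rwa [← succ_nsmul, show (j + 1) • P - P = j • P by rw [succ_nsmul]; abel] at this

variable {x y : F} (h : E.Nonsingular x y)

/-- The main properties of the auxiliary sequence attached to a point all of whose multiples
`k • P`, `0 < k < N`, are nonzero. -/
theorem wSeq_spec (N : ℕ) (hN : ∀ k, 0 < k → k < N → k • Point.some x y h ≠ 0) :
    (∀ k, 1 ≤ k → k < N →
      wSeq (fun k => xc E (k • Point.some x y h)) (y - E.negY x y) k ≠ 0) ∧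
    (∀ k, k + 2 ≤ N →
      (xc E ((k + 1) • Point.some x y h) - x) *
          wSeq (fun k => xc E (k • Point.some x y h)) (y - E.negY x y) (k + 1) ^ 2 =
        -(wSeq (fun k => xc E (k • Point.some x y h)) (y - E.negY x y) (k + 2) *
          wSeq (fun k => xc E (k • Point.some x y h)) (y - E.negY x y) k)) ∧
    (∀ n : ℕ, n ≤ N →
      wSeq (fun k => xc E (k • Point.some x y h)) (y - E.negY x y) n = psiVal E x y n) := by
  obtain ⟨P, hPdef⟩ : ∃ P, P = Point.some x y h := ⟨_, rfl⟩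
  rw [← hPdef] at hN ⊢
  obtain ⟨X, hX⟩ : ∃ X : ℕ → F, X = fun k => xc E (k • P) := ⟨_, rfl⟩
  obtain ⟨p, hp⟩ : ∃ p, p = y - E.negY x y := ⟨_, rfl⟩
  rw [← hX, ← hp]
  have hXk : ∀ k, xc E (k • P) = X k := fun k => by rw [hX]
  simp only [hXk]
  have hP : P ≠ 0 := by rw [hPdef]; exact Point.some_ne_zero h
  have hxP : xc E P = x := by rw [hPdef]; rfl
  have X1 : X 1 = x := by rw [← hXk, one_nsmul, hxP]
  have hpsq : p ^ 2 = dblDen E x := by rw [hp]; exact psi_sq E h.1
  have h2P : 3 ≤ N → (2 : ℕ) • P ≠ 0 := fun h3 => hN 2 (by omega) (by omega)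
  have hdbl : 3 ≤ N → X 2 * dblDen E x = dblNum E x := by
    intro h3
    have := xc_two_nsmul E h (by rw [← hPdef]; exact h2P h3)
    rwa [← hPdef, hXk] at this
  have hp0 : 3 ≤ N → p ≠ 0 := by
    intro h3 hp0
    apply h2P h3
    rw [hPdef, two_nsmul_eq_zero_iff, ← hpsq, hp0]; ring
  have hXne : ∀ k, 2 ≤ k → k + 1 < N → X k ≠ x := by
    intro k hk hkN
    have := xc_nsmul_ne E hN hk hkN
    rwa [hXk, hxP] at this
  -- nonvanishing
  have wne : ∀ k, 1 ≤ k → k < N → wSeq X p k ≠ 0 := by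
    intro k
    induction k using Nat.strong_induction_on with
    | _ k ih =>
      intro hk1 hkN
      rcases k with _ | _ | _ | k
      · omega
      · rw [wSeq_one]; exact one_ne_zero
      · rw [wSeq_two]; exact hp0 (by omega)
      · rw [wSeq_add_three]
        have hx := hXne (k + 2) (by omega) (by omega)
        have h2 := ih (k + 2) (by omega) (by omega) (by omega)
        have h1 := ih (k + 1) (by omega) (by omega) (by omega)
        refine div_ne_zero (neg_ne_zero.mpr (mul_ne_zero ?_ (pow_ne_zero 2 h2))) h1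
        rw [X1]; exact sub_ne_zero.mpr hx
  have hD : ∀ k, k + 2 ≤ N →
      (X (k + 1) - X 1) * wSeq X p (k + 1) ^ 2 = -(wSeq X p (k + 2) * wSeq X p k) := by
    intro k hk
    rcases k with _ | k
    · simp [wSeq_zero]
    · have hk0 : wSeq X p (k + 1) ≠ 0 := wne (k + 1) (by omega) (by omega)
      show (X (k + 2) - X 1) * wSeq X p (k + 2) ^ 2 = -(wSeq X p (k + 3) * wSeq X p (k + 1))
      rw [wSeq_add_three]; field_simp
  have hTwo : ∀ a, 1 ≤ a → a + 3 ≤ N →
      (X (a + 2) - X 1) * (X a - X 1) * (X (a + 1) - X 1) ^ 2 =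
        -(wSeq X p 2 ^ 2 * (X (a + 1) - X 2)) := by
    intro a ha haN
    have hx := hXne (a + 1) (by omega) (by omega)
    have hT := xc_nsmul_triForm E hP (j := a) (hN (a + 1) (by omega) (by omega))
      (by rw [hXk, hxP]; exact hx) x
    rw [hXk, hXk, hXk, hxP, triForm_swap₁₂, triForm_self] at hT
    rw [wSeq_two, hpsq, X1]
    linear_combination hT - hdbl (by omega)
  have hSym : ∀ a b, 1 ≤ b → b < a → a + b + 3 ≤ N →
      (X (a + 1) - X (b + 2)) * (X (a + 1) - X b) * (X (b + 1) - X 1) ^ 2 =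
        (X (b + 1) - X (a + 2)) * (X (b + 1) - X a) * (X (a + 1) - X 1) ^ 2 := by
    intro a b hb hba habN
    have hxa := hXne (a + 1) (by omega) (by omega)
    have hxb := hXne (b + 1) (by omega) (by omega)
    have hT1 := xc_nsmul_triForm E hP (j := b) (hN (b + 1) (by omega) (by omega))
      (by rw [hXk, hxP]; exact hxb) (X (a + 1))
    have hT2 := xc_nsmul_triForm E hP (j := a) (hN (a + 1) (by omega) (by omega))
      (by rw [hXk, hxP]; exact hxa) (X (b + 1))
    rw [hXk, hXk, hXk, hxP] at hT1 hT2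
    rw [triForm_swap₁₂] at hT1
    rw [X1]
    linear_combination hT1 - hT2
  refine ⟨wne, ?_, ?_⟩
  · intro k hk
    have := hD k hk
    rwa [X1] at this
  · have w3 : 3 ≤ N → wSeq X p 3 = triDen E x := by
      intro h3
      rw [show (3 : ℕ) = 0 + 3 from rfl, wSeq_add_three]
      show -((X 2 - X 1) * wSeq X p 2 ^ 2) / wSeq X p 1 = triDen E x
      rw [wSeq_one, wSeq_two, hpsq, X1, triDen_eq, div_one]
      linear_combination (-1 : F) * hdbl h3
    have w4 : 4 ≤ N → wSeq X p 4 = quadDen E x * p := by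
      intro h4
      have h3 : 3 ≤ N := by omega
      rw [show (4 : ℕ) = 1 + 3 from rfl, wSeq_add_three]
      show -((X 3 - X 1) * wSeq X p 3 ^ 2) / wSeq X p 2 = quadDen E x * p
      rw [w3 h3, wSeq_two, X1, div_eq_iff (hp0 h3), mul_assoc, ← sq, hpsq]
      have hx2 := hXne 2 (by omega) (by omega)
      have hS := xc_nsmul_sumForm E hP (j := 1) (hN 2 (by omega) (by omega))
        (by rw [hXk, hxP]; exact hx2)
      rw [hXk, hXk, hXk, hxP, X1] at hS
      have hadd := sumForm_add E x (X 2 - x)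
      rw [add_sub_cancel] at hadd
      rw [hadd] at hS
      have hdbl' := hdbl h3
      have hT : triDen E x = -((X 2 - x) * dblDen E x) := by
        rw [triDen_eq]; linear_combination hdbl'
      have h1 : (X 3 - x) * (X 2 - x) ^ 2
          = dblDen E x + (6 * x ^ 2 + E.b₂ * x + E.b₄) * (X 2 - x) := by
        linear_combination hS
      rw [quadDen_eq, hT]
      linear_combination (-(dblDen E x) ^ 2) * h1
    have hodd := ladder_odd N X (wSeq X p) (wSeq_zero X p) (wSeq_one X p) wne hD hTwo hSym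
    have heven := ladder_even N X (wSeq X p) (wSeq_zero X p) (wSeq_one X p) wne hD hTwo hSym
    have := eq_normEDS_of_rec N (wSeq X p) p (triDen E x) (quadDen E x) (wSeq_zero X p)
      (wSeq_one X p) (wSeq_two X p) w3 w4 hp0 hodd heven
    intro n hn
    rw [this n hn, psiVal, hp]

theorem psiVal_ne_zero (N : ℕ) (hN : ∀ k, 0 < k → k < N → k • Point.some x y h ≠ 0) {k : ℕ}
    (hk1 : 1 ≤ k) (hk : k < N) : psiVal E x y k ≠ 0 := by
  obtain ⟨wne, -, hid⟩ := wSeq_spec E h N hN
  rw [← hid k hk.le]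
  exact wne k hk1 hk

theorem xc_nsmul_psiVal (N : ℕ) (hN : ∀ k, 0 < k → k < N → k • Point.some x y h ≠ 0) {j : ℕ}
    (hj : j + 2 ≤ N) :
    (xc E ((j + 1) • Point.some x y h) - x) * psiVal E x y ((j + 1 : ℕ) : ℤ) ^ 2 =
      -(psiVal E x y ((j + 2 : ℕ) : ℤ) * psiVal E x y (j : ℤ)) := by
  obtain ⟨-, hD, hid⟩ := wSeq_spec E h N hN
  rw [← hid (j + 1) (by omega), ← hid (j + 2) hj, ← hid j (by omega)]
  exact hD j hj

theorem psiVal_eq_zero_of_nsmul_eq_zero (N : ℕ)
    (hN : ∀ k, 0 < k → k < N → k • Point.some x y h ≠ 0) (hNP : N • Point.some x y h = 0) :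
    psiVal E x y N = 0 := by
  obtain ⟨-, -, hid⟩ := wSeq_spec E h N hN
  rw [← hid N le_rfl]
  rcases N with _ | _ | _ | N
  · rw [wSeq_zero]
  · rw [one_nsmul] at hNP
    exact absurd hNP (Point.some_ne_zero h)
  · show wSeq _ _ 2 = 0
    rw [wSeq_two]
    have := (two_nsmul_eq_zero_iff E h).mp hNP
    rw [← psi_sq E h.1] at this
    exact pow_eq_zero_iff (n := 2) (by norm_num) |>.mp this
  · show wSeq _ _ (N + 3) = 0
    rw [wSeq_add_three]
    have : (N + 2) • Point.some x y h = -Point.some x y h := by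
      rw [eq_neg_iff_add_eq_zero, ← succ_nsmul]
      exact hNP
    simp only [this, xc_neg, one_nsmul, sub_self, zero_mul, neg_zero, zero_div]

end BelowOrder

end Fermat.Agent.Lib.DivPoly
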