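import Mathlib
import Fermat.Agent.Lib.DivPoly.BelowOrder

/-!
# Torsion points of prime order are roots of Mathlib's division polynomial

If `P = (x, y)` is a nonsingular point with `p • P = 0`, `p` an odd prime, then
`(W.preΨ' p).eval x = 0`, where `W.preΨ' p` is Mathlib's `p`-th division polynomial
(of degree `(p² - 1) / 2` and leading coefficient `p`).  More generally, if `N • P = 0` and
`k • P ≠ 0` for `0 < k < N`, then `(W.ΨSq N).eval x = 0`.
-/

set_option autoImplicit false

namespace Fermat.Agent.Lib.DivPoly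

open WeierstrassCurve WeierstrassCurve.Affine Polynomial

section

variable {F : Type*} [Field F] [DecidableEq F] (E : WeierstrassCurve.Affine F)
  {x y : F} (h : E.Nonsingular x y)

/-- If `N` is the exact order of `P = (x, y)` then `ΨSq_N (x) = 0`. -/
theorem eval_ΨSq_eq_zero_of_order (N : ℕ)
    (hN : ∀ k, 0 < k → k < N → k • Point.some x y h ≠ 0) (hNP : N • Point.some x y h = 0) :
    (E.ΨSq N).eval x = 0 := by
  rw [← psiVal_sq E h.1, psiVal_eq_zero_of_nsmul_eq_zero E h N hN hNP]
  ring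

/-- Below the order of `P = (x, y)` the polynomials `ΨSq_k` do not vanish at `x`. -/
theorem eval_ΨSq_ne_zero_of_lt_order (N : ℕ)
    (hN : ∀ k, 0 < k → k < N → k • Point.some x y h ≠ 0) {k : ℕ} (hk1 : 1 ≤ k) (hk : k < N) :
    (E.ΨSq k).eval x ≠ 0 := by
  rw [← psiVal_sq E h.1]
  exact pow_ne_zero 2 (psiVal_ne_zero E h N hN hk1 hk)

/-- Below the order of `P = (x, y)`: `x(k • P) * ΨSq_k (x) = Φ_k (x)`. -/
theorem xc_nsmul_mul_eval_ΨSq_of_lt_order (N : ℕ)
    (hN : ∀ k, 0 < k → k < N → k • Point.some x y h ≠ 0) {k : ℕ} (hk1 : 1 ≤ k) (hk : k < N) :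
    xc E (k • Point.some x y h) * (E.ΨSq k).eval x = (E.Φ k).eval x := by
  obtain ⟨j, rfl⟩ : ∃ j, k = j + 1 := ⟨k - 1, by omega⟩
  have hD := xc_nsmul_psiVal E h N hN (j := j) (by omega)
  rw [eval_Φ_eq E h.1, ← psiVal_sq E h.1]
  have e1 : ((j + 1 : ℕ) : ℤ) + 1 = ((j + 2 : ℕ) : ℤ) := by push_cast; ring
  have e2 : ((j + 1 : ℕ) : ℤ) - 1 = (j : ℤ) := by push_cast; ring
  rw [e1, e2]
  linear_combination hD

/-- A point of odd prime order `p` has abscissa a root of the division polynomial `preΨ' p`. -/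
theorem eval_preΨ'_eq_zero_of_prime_nsmul {p : ℕ} (hp : p.Prime) (hp2 : p ≠ 2)
    (hT : p • Point.some x y h = 0) : (E.preΨ' p).eval x = 0 := by
  have hne : Point.some x y h ≠ 0 := Point.some_ne_zero h
  have : Fact p.Prime := ⟨hp⟩
  have hord : addOrderOf (Point.some x y h) = p := addOrderOf_eq_prime hT hne
  have hN : ∀ k, 0 < k → k < p → k • Point.some x y h ≠ 0 := by
    intro k hk0 hkp hk
    have := addOrderOf_dvd_of_nsmul_eq_zero hk
    rw [hord] at this
    exact absurd (Nat.le_of_dvd hk0 this) (by omega)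
  have h0 := eval_ΨSq_eq_zero_of_order E h p hN hT
  have hodd : ¬ Even p := by
    rw [Nat.not_even_iff_odd]; exact hp.odd_of_ne_two hp2
  rw [ΨSq_ofNat, if_neg hodd, mul_one, eval_pow] at h0
  exact pow_eq_zero_iff (n := 2) (by norm_num) |>.mp h0

end

section BaseChange

variable {R : Type*} [CommRing R] (W : WeierstrassCurve R) {F : Type*} [Field F] [DecidableEq F]
  [Algebra R F]

/-- Base-change form: for an integral model `W` over `R` and a point of odd prime order `p` on
`W⁄F`, the abscissa is a root of the `R`-polynomial `W.preΨ' p`. -/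
theorem aeval_preΨ'_eq_zero_of_prime_nsmul {x y : F} (h : (W⁄F).toAffine.Nonsingular x y)
    {p : ℕ} (hp : p.Prime) (hp2 : p ≠ 2)
    (hT : p • (Point.some x y h : (W⁄F).toAffine.Point) = 0) :
    aeval x (W.preΨ' p) = 0 := by
  have := eval_preΨ'_eq_zero_of_prime_nsmul (W⁄F).toAffine h hp hp2 hT
  rw [show (W⁄F) = W.map (algebraMap R F) from rfl, map_preΨ', eval_map] at this
  rw [aeval_def]
  exact this

/-- The leading coefficient of the `p`-th division polynomial for odd `p`. -/
theorem leadingCoeff_preΨ'_of_odd {p : ℕ} (hodd : Odd p) (hp : (p : R) ≠ 0) :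
    (W.preΨ' p).leadingCoeff = (p : R) := by
  rw [leadingCoeff_preΨ' W hp, if_neg (Nat.not_even_iff_odd.mpr hodd)]

end BaseChange

end Fermat.Agent.Lib.DivPoly
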