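import Mathlib
import Fermat.Agent.Lib.DivPoly.PrimeTorsion

/-!
# The universal identities between `Φ_n` and `ΨSq_n`

Using the generic point of a Weierstrass curve over a domain of characteristic zero (a point of
infinite order on the base change to the function field) we prove the polynomial identities
relating `Φ_{n±1}`, `ΨSq_{n±1}` to `Φ_n`, `ΨSq_n`, first over domains of characteristic zero,
then (via the universal curve over `ℤ[A₁, A₂, A₃, A₄, A₆]`) over every commutative ring.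
-/

set_option autoImplicit false

namespace Fermat.Agent.Lib.DivPoly

open WeierstrassCurve WeierstrassCurve.Affine Polynomial
open scoped Polynomial.Bivariate

section Generic

variable {R : Type*} [CommRing R] (W : WeierstrassCurve R)

/-- The canonical map from `R[X][Y]` to the function field of `W`. -/
noncomputable def genHom : R[X][Y] →+* W.toAffine.FunctionField :=
  (algebraMap W.toAffine.CoordinateRing W.toAffine.FunctionField).comp
    (CoordinateRing.mk W.toAffine)

/-- The map from `R[X]` to the function field of `W`. -/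
noncomputable def genPoly : R[X] →+* W.toAffine.FunctionField :=
  (genHom W).comp C

/-- The map from `R` to the function field of `W`. -/
noncomputable def genCoeff : R →+* W.toAffine.FunctionField :=
  (genPoly W).comp C

/-- The abscissa of the generic point. -/
noncomputable def genX : W.toAffine.FunctionField := genPoly W X

/-- The ordinate of the generic point. -/
noncomputable def genY : W.toAffine.FunctionField := genHom W Y

/-- The base change of `W` to its function field. -/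
noncomputable def genCurve : WeierstrassCurve.Affine W.toAffine.FunctionField :=
  W.map (genCoeff W)

lemma genHom_polynomial : genHom W W.toAffine.polynomial = 0 := by
  rw [genHom, RingHom.comp_apply, AdjoinRoot.mk_self, map_zero]

lemma genPoly_injective : Function.Injective (genPoly W) := by
  rw [injective_iff_map_eq_zero]
  intro p hp
  rw [genPoly, genHom, RingHom.comp_apply, RingHom.comp_apply] at hp
  have h1 := (IsFractionRing.injective W.toAffine.CoordinateRing W.toAffine.FunctionField)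
    (hp.trans (map_zero _).symm)
  have h2 : p • (1 : W.toAffine.CoordinateRing) + (0 : R[X]) • CoordinateRing.mk W.toAffine Y
      = 0 := by
    rw [zero_smul, add_zero, CoordinateRing.smul, mul_one]
    exact h1
  exact (CoordinateRing.smul_basis_eq_zero h2).1

lemma eval_genX_map (p : R[X]) : (p.map (genCoeff W)).eval (genX W) = genPoly W p := by
  rw [eval_map, genCoeff, genX, ← hom_eval₂, eval₂_C_X]

lemma genCurve_equation : (genCurve W).Equation (genX W) (genY W) := by
  rw [equation_iff']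
  have h : genHom W (Y ^ 2 + C (C W.a₁ * X + C W.a₃) * Y
      - C (X ^ 3 + C W.a₂ * X ^ 2 + C W.a₄ * X + C W.a₆)) = 0 := genHom_polynomial W
  simp only [map_sub, map_add, map_mul, map_pow] at h
  simp only [genCurve, map_a₁, map_a₂, map_a₃, map_a₄, map_a₆, genCoeff, genPoly, genX, genY,
    RingHom.comp_apply]
  linear_combination h

/-- The polynomial identity `(Φ_n - X ΨSq_n)² = ΨSq_{n+1} ΨSq_{n-1}` (immediate from the
definitions). -/
theorem Φ_sub_sq (n : ℤ) :
    (W.Φ n - X * W.ΨSq n) ^ 2 = W.ΨSq (n + 1) * W.ΨSq (n - 1) := by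
  simp only [WeierstrassCurve.Φ, ΨSq, Int.even_add_one, Int.even_sub_one]
  split_ifs <;> ring

end Generic

/-- The field algebra behind the generic identities. -/
lemma gen_algebra {K : Type*} [Field K] (b₂ b₄ b₆ b₈ x X2 X1 X0 A2 A1 A0 B2 B1 B0 : K)
    (hS : (X2 + X0) * (X1 - x) ^ 2 = 2 * X1 * x * (X1 + x) + b₂ * X1 * x + b₄ * (X1 + x) + b₆)
    (hT : X2 * X0 * (X1 - x) ^ 2 = X1 ^ 2 * x ^ 2 - b₄ * X1 * x - b₆ * (X1 + x) - b₈)
    (hA2 : X2 * B2 = A2) (hA1 : X1 * B1 = A1) (hA0 : X0 * B0 = A0)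
    (hI3 : (A1 - x * B1) ^ 2 = B2 * B0) (hB2 : B2 ≠ 0) (hB0 : B0 ≠ 0) :
    A2 * B0 + A0 * B2
        = 2 * x * A1 ^ 2 + (2 * x ^ 2 + b₂ * x + b₄) * (A1 * B1) + (b₄ * x + b₆) * B1 ^ 2 ∧
      A2 * A0 = x ^ 2 * A1 ^ 2 - b₄ * x * (A1 * B1) - b₆ * ((A1 + x * B1) * B1) - b₈ * B1 ^ 2 := by
  subst hA2 hA1 hA0
  have hM : B2 * B0 ≠ 0 := mul_ne_zero hB2 hB0
  constructor
  · apply mul_left_cancel₀ hM
    linear_combination (-(B2 * B0 * (X2 + X0))) * hI3 + (B2 * B0 * B1 ^ 2) * hS
  · apply mul_left_cancel₀ hM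
    linear_combination (-(B2 * B0 * X2 * X0)) * hI3 + (B2 * B0 * B1 ^ 2) * hT

section Domain

variable {R : Type*} [CommRing R] [IsDomain R] (W : WeierstrassCurve R)

omit [IsDomain R] in
lemma genCurve_nonsingular (h2 : (2 : R) ≠ 0) :
    (genCurve W).Nonsingular (genX W) (genY W) := by
  rw [nonsingular_iff']
  refine ⟨genCurve_equation W, Or.inr ?_⟩
  have e : 2 * genY W + (genCurve W).a₁ * genX W + (genCurve W).a₃
      = algebraMap W.toAffine.CoordinateRing W.toAffine.FunctionField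
        ((C W.a₁ * X + C W.a₃ : R[X]) • (1 : W.toAffine.CoordinateRing)
          + (C 2 : R[X]) • CoordinateRing.mk W.toAffine Y) := by
    simp only [genCurve, map_a₁, map_a₃, genCoeff, genPoly, genX, genY, genHom,
      RingHom.comp_apply, CoordinateRing.smul, mul_one, map_add, map_mul, map_ofNat]
    ring
  rw [e]
  intro h0
  have h1 := (IsFractionRing.injective W.toAffine.CoordinateRing W.toAffine.FunctionField)
    (h0.trans (map_zero _).symm)
  have h3 := (CoordinateRing.smul_basis_eq_zero h1).2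
  exact h2 (C_eq_zero.mp h3)

variable [DecidableEq W.toAffine.FunctionField]

/-- The generic point has infinite order. -/
lemma genPoint_nsmul_ne_zero [CharZero R] (hns : (genCurve W).Nonsingular (genX W) (genY W))
    (k : ℕ) (hk : 0 < k) :
    k • (Point.some (genX W) (genY W) hns : (genCurve W).Point) ≠ 0 := by
  intro h
  obtain ⟨N, hN0, hNP, hN⟩ : ∃ N : ℕ, 0 < N ∧
      N • (Point.some (genX W) (genY W) hns : (genCurve W).Point) = 0 ∧
      ∀ j, 0 < j → j < N →
        j • (Point.some (genX W) (genY W) hns : (genCurve W).Point) ≠ 0 := by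
    classical
    have hex : ∃ n, 0 < n ∧ n • (Point.some (genX W) (genY W) hns : (genCurve W).Point) = 0 :=
      ⟨k, hk, h⟩
    exact ⟨Nat.find hex, (Nat.find_spec hex).1, (Nat.find_spec hex).2,
      fun j hj0 hj hjP => Nat.find_min hex hj ⟨hj0, hjP⟩⟩
  have h0 := eval_ΨSq_eq_zero_of_order (genCurve W) hns N hN hNP
  have h0' : ((W.ΨSq N).map (genCoeff W)).eval (genX W) = 0 := by
    rw [← map_ΨSq]; exact h0
  rw [eval_genX_map] at h0'
  have h1 := genPoly_injective W (h0'.trans (map_zero _).symm)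
  refine W.ΨSq_ne_zero (n := (N : ℤ)) ?_ h1
  rw [Int.cast_natCast]
  exact Nat.cast_ne_zero.mpr hN0.ne'

omit [IsDomain R] [DecidableEq W.toAffine.FunctionField] in
lemma gen_eval_Φ (n : ℤ) : ((genCurve W).Φ n).eval (genX W) = genPoly W (W.Φ n) := by
  rw [show genCurve W = W.map (genCoeff W) from rfl, map_Φ, eval_genX_map]

omit [IsDomain R] [DecidableEq W.toAffine.FunctionField] in
lemma gen_eval_ΨSq (n : ℤ) : ((genCurve W).ΨSq n).eval (genX W) = genPoly W (W.ΨSq n) := by
  rw [show genCurve W = W.map (genCoeff W) from rfl, map_ΨSq, eval_genX_map]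

omit [DecidableEq W.toAffine.FunctionField] in
/-- The two identities over a domain of characteristic zero, for `n = j + 1 ≥ 2`. -/
theorem Φ_ΨSq_identities_of_domain [CharZero R] (j : ℕ) (hj : 1 ≤ j) :
    W.Φ ((j + 2 : ℕ) : ℤ) * W.ΨSq (j : ℤ) + W.Φ (j : ℤ) * W.ΨSq ((j + 2 : ℕ) : ℤ)
        = 2 * X * W.Φ ((j + 1 : ℕ) : ℤ) ^ 2
          + (2 * X ^ 2 + C W.b₂ * X + C W.b₄) * (W.Φ ((j + 1 : ℕ) : ℤ) * W.ΨSq ((j + 1 : ℕ) : ℤ))
          + (C W.b₄ * X + C W.b₆) * W.ΨSq ((j + 1 : ℕ) : ℤ) ^ 2 ∧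
      W.Φ ((j + 2 : ℕ) : ℤ) * W.Φ (j : ℤ)
        = X ^ 2 * W.Φ ((j + 1 : ℕ) : ℤ) ^ 2
          - C W.b₄ * X * (W.Φ ((j + 1 : ℕ) : ℤ) * W.ΨSq ((j + 1 : ℕ) : ℤ))
          - C W.b₆ * ((W.Φ ((j + 1 : ℕ) : ℤ) + X * W.ΨSq ((j + 1 : ℕ) : ℤ))
              * W.ΨSq ((j + 1 : ℕ) : ℤ))
          - C W.b₈ * W.ΨSq ((j + 1 : ℕ) : ℤ) ^ 2 := by
  classical
  have hns := genCurve_nonsingular W (two_ne_zero (α := R))
  have hnt := genPoint_nsmul_ne_zero W hns
  have hPne : (Point.some (genX W) (genY W) hns : (genCurve W).Point) ≠ 0 :=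
    Point.some_ne_zero hns
  have hN : ∀ k, 0 < k → k < j + 4 →
      k • (Point.some (genX W) (genY W) hns : (genCurve W).Point) ≠ 0 := fun k hk _ => hnt k hk
  have hx1 := xc_nsmul_ne (genCurve W) hN (k := j + 1) (by omega) (by omega)
  have hS := xc_nsmul_sumForm (genCurve W) hPne (j := j) (hnt (j + 1) (by omega)) hx1
  have hT := xc_nsmul_triForm (genCurve W) hPne (j := j) (hnt (j + 1) (by omega)) hx1 0
  have hA2 := xc_nsmul_mul_eval_ΨSq_of_lt_order (genCurve W) hns (j + 4) hN (k := j + 2)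
    (by omega) (by omega)
  have hA1 := xc_nsmul_mul_eval_ΨSq_of_lt_order (genCurve W) hns (j + 4) hN (k := j + 1)
    (by omega) (by omega)
  have hA0 := xc_nsmul_mul_eval_ΨSq_of_lt_order (genCurve W) hns (j + 4) hN (k := j)
    (by omega) (by omega)
  have hB2 := eval_ΨSq_ne_zero_of_lt_order (genCurve W) hns (j + 4) hN (k := j + 2)
    (by omega) (by omega)
  have hB0 := eval_ΨSq_ne_zero_of_lt_order (genCurve W) hns (j + 4) hN (k := j)
    (by omega) (by omega)
  have hI3 := congrArg (eval (genX W)) (Φ_sub_sq (genCurve W) ((j + 1 : ℕ) : ℤ))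
  have e1 : ((j + 1 : ℕ) : ℤ) + 1 = ((j + 2 : ℕ) : ℤ) := by push_cast; ring
  have e2 : ((j + 1 : ℕ) : ℤ) - 1 = (j : ℤ) := by push_cast; ring
  rw [e1, e2] at hI3
  simp only [eval_pow, eval_sub, eval_mul, eval_X] at hI3
  simp only [sumForm, xc_some] at hS
  simp only [triForm, prodForm, xc_some] at hT
  have hT' : xc (genCurve W) ((j + 2) • (Point.some (genX W) (genY W) hns : (genCurve W).Point))
        * xc (genCurve W) (j • (Point.some (genX W) (genY W) hns : (genCurve W).Point))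
        * (xc (genCurve W) ((j + 1) • (Point.some (genX W) (genY W) hns : (genCurve W).Point))
          - genX W) ^ 2
      = xc (genCurve W) ((j + 1) • (Point.some (genX W) (genY W) hns : (genCurve W).Point)) ^ 2
          * genX W ^ 2
        - (genCurve W).b₄
          * xc (genCurve W) ((j + 1) • (Point.some (genX W) (genY W) hns : (genCurve W).Point))
          * genX W
        - (genCurve W).b₆
          * (xc (genCurve W) ((j + 1) • (Point.some (genX W) (genY W) hns : (genCurve W).Point))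
            + genX W)
        - (genCurve W).b₈ := by
    linear_combination hT
  obtain ⟨g1, g2⟩ := gen_algebra _ _ _ _ _ _ _ _ _ _ _ _ _ _ hS hT' hA2 hA1 hA0 hI3 hB2 hB0
  have hb₂ : (genCurve W).b₂ = genPoly W (C W.b₂) := by
    rw [show genCurve W = W.map (genCoeff W) from rfl, map_b₂]; rfl
  have hb₄ : (genCurve W).b₄ = genPoly W (C W.b₄) := by
    rw [show genCurve W = W.map (genCoeff W) from rfl, map_b₄]; rfl
  have hb₆ : (genCurve W).b₆ = genPoly W (C W.b₆) := by
    rw [show genCurve W = W.map (genCoeff W) from rfl, map_b₆]; rfl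
  have hb₈ : (genCurve W).b₈ = genPoly W (C W.b₈) := by
    rw [show genCurve W = W.map (genCoeff W) from rfl, map_b₈]; rfl
  rw [hb₂, hb₄, hb₆, gen_eval_Φ, gen_eval_Φ, gen_eval_Φ, gen_eval_ΨSq, gen_eval_ΨSq,
    gen_eval_ΨSq, genX] at g1
  rw [hb₄, hb₆, hb₈, gen_eval_Φ, gen_eval_Φ, gen_eval_Φ, gen_eval_ΨSq, genX] at g2
  constructor
  · apply genPoly_injective W
    simp only [map_add, map_mul, map_pow, map_ofNat]
    exact g1
  · apply genPoly_injective W
    simp only [map_add, map_sub, map_mul, map_pow]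
    exact g2

end Domain

section Universal

/-- The universal Weierstrass curve over `ℤ[A₁, A₂, A₃, A₄, A₆]`. -/
noncomputable def univCurve : WeierstrassCurve (MvPolynomial (Fin 5) ℤ) :=
  ⟨MvPolynomial.X 0, MvPolynomial.X 1, MvPolynomial.X 2, MvPolynomial.X 3, MvPolynomial.X 4⟩

variable {R : Type*} [CommRing R] (W : WeierstrassCurve R)

/-- The specialisation homomorphism of the universal curve to a given curve. -/
noncomputable def specHom : MvPolynomial (Fin 5) ℤ →+* R :=
  MvPolynomial.eval₂Hom (Int.castRingHom R) ![W.a₁, W.a₂, W.a₃, W.a₄, W.a₆]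

lemma univCurve_map : univCurve.map (specHom W) = W := by
  ext <;> simp [univCurve, specHom]

/-- The two identities for `n = j + 1 ≥ 1` over an arbitrary commutative ring. -/
theorem Φ_ΨSq_identities_nat (j : ℕ) :
    W.Φ ((j + 2 : ℕ) : ℤ) * W.ΨSq (j : ℤ) + W.Φ (j : ℤ) * W.ΨSq ((j + 2 : ℕ) : ℤ)
        = 2 * X * W.Φ ((j + 1 : ℕ) : ℤ) ^ 2
          + (2 * X ^ 2 + C W.b₂ * X + C W.b₄) * (W.Φ ((j + 1 : ℕ) : ℤ) * W.ΨSq ((j + 1 : ℕ) : ℤ))
          + (C W.b₄ * X + C W.b₆) * W.ΨSq ((j + 1 : ℕ) : ℤ) ^ 2 ∧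
      W.Φ ((j + 2 : ℕ) : ℤ) * W.Φ (j : ℤ)
        = X ^ 2 * W.Φ ((j + 1 : ℕ) : ℤ) ^ 2
          - C W.b₄ * X * (W.Φ ((j + 1 : ℕ) : ℤ) * W.ΨSq ((j + 1 : ℕ) : ℤ))
          - C W.b₆ * ((W.Φ ((j + 1 : ℕ) : ℤ) + X * W.ΨSq ((j + 1 : ℕ) : ℤ))
              * W.ΨSq ((j + 1 : ℕ) : ℤ))
          - C W.b₈ * W.ΨSq ((j + 1 : ℕ) : ℤ) ^ 2 := by
  rcases Nat.eq_zero_or_pos j with rfl | hj
  · simp only [zero_add, Nat.cast_ofNat, Nat.cast_zero, Nat.cast_one, Φ_two, ΨSq_zero, Φ_zero,
      ΨSq_two, Φ_one, ΨSq_one, Ψ₂Sq, map_mul, map_ofNat]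
    constructor <;> ring
  · obtain ⟨g1, g2⟩ := Φ_ΨSq_identities_of_domain univCurve j hj
    have h1 := congrArg (Polynomial.map (specHom W)) g1
    have h2 := congrArg (Polynomial.map (specHom W)) g2
    have hb₂ : specHom W univCurve.b₂ = W.b₂ := by rw [← map_b₂, univCurve_map]
    have hb₄ : specHom W univCurve.b₄ = W.b₄ := by rw [← map_b₄, univCurve_map]
    have hb₆ : specHom W univCurve.b₆ = W.b₆ := by rw [← map_b₆, univCurve_map]
    have hb₈ : specHom W univCurve.b₈ = W.b₈ := by rw [← map_b₈, univCurve_map]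
    have hΦ : ∀ n : ℤ, (univCurve.Φ n).map (specHom W) = W.Φ n := by
      intro n; rw [← map_Φ, univCurve_map]
    have hΨ : ∀ n : ℤ, (univCurve.ΨSq n).map (specHom W) = W.ΨSq n := by
      intro n; rw [← map_ΨSq, univCurve_map]
    simp only [Polynomial.map_add, Polynomial.map_sub, Polynomial.map_mul, Polynomial.map_pow,
      Polynomial.map_ofNat, Polynomial.map_X, Polynomial.map_C, hb₂, hb₄, hb₆, hb₈, hΦ,
      hΨ] at h1 h2
    exact ⟨h1, h2⟩

/-- **Universal identity I1**: `Φ_{n+1} ΨSq_{n-1} + Φ_{n-1} ΨSq_{n+1}` in terms of `Φ_n`, `ΨSq_n`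
(the x-only sum formula applied to `nP` and `P`). -/
theorem Φ_mul_ΨSq_add (n : ℤ) :
    W.Φ (n + 1) * W.ΨSq (n - 1) + W.Φ (n - 1) * W.ΨSq (n + 1)
      = 2 * X * W.Φ n ^ 2 + (2 * X ^ 2 + C W.b₂ * X + C W.b₄) * (W.Φ n * W.ΨSq n)
        + (C W.b₄ * X + C W.b₆) * W.ΨSq n ^ 2 := by
  obtain ⟨m, rfl | rfl⟩ := Int.eq_nat_or_neg n
  · rcases m with _ | j
    · simp
      ring
    · have h := (Φ_ΨSq_identities_nat W j).1
      rw [show ((j + 1 : ℕ) : ℤ) + 1 = ((j + 2 : ℕ) : ℤ) by push_cast; ring,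
        show ((j + 1 : ℕ) : ℤ) - 1 = (j : ℤ) by push_cast; ring]
      exact h
  · rcases m with _ | j
    · simp
      ring
    · have h := (Φ_ΨSq_identities_nat W j).1
      rw [show -((j + 1 : ℕ) : ℤ) + 1 = -(j : ℤ) by push_cast; ring,
        show -((j + 1 : ℕ) : ℤ) - 1 = -((j + 2 : ℕ) : ℤ) by push_cast; ring]
      simp only [Φ_neg, ΨSq_neg]
      linear_combination h

/-- **Universal identity I2**: `Φ_{n+1} Φ_{n-1}` in terms of `Φ_n`, `ΨSq_n`
(the x-only product formula applied to `nP` and `P`). -/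
theorem Φ_mul_Φ (n : ℤ) :
    W.Φ (n + 1) * W.Φ (n - 1)
      = X ^ 2 * W.Φ n ^ 2 - C W.b₄ * X * (W.Φ n * W.ΨSq n)
        - C W.b₆ * ((W.Φ n + X * W.ΨSq n) * W.ΨSq n) - C W.b₈ * W.ΨSq n ^ 2 := by
  obtain ⟨m, rfl | rfl⟩ := Int.eq_nat_or_neg n
  · rcases m with _ | j
    · simp
      ring
    · have h := (Φ_ΨSq_identities_nat W j).2
      rw [show ((j + 1 : ℕ) : ℤ) + 1 = ((j + 2 : ℕ) : ℤ) by push_cast; ring,
        show ((j + 1 : ℕ) : ℤ) - 1 = (j : ℤ) by push_cast; ring]
      exact h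
  · rcases m with _ | j
    · simp
      ring
    · have h := (Φ_ΨSq_identities_nat W j).2
      rw [show -((j + 1 : ℕ) : ℤ) + 1 = -(j : ℤ) by push_cast; ring,
        show -((j + 1 : ℕ) : ℤ) - 1 = -((j + 2 : ℕ) : ℤ) by push_cast; ring]
      simp only [Φ_neg, ΨSq_neg]
      linear_combination h

end Universal

end Fermat.Agent.Lib.DivPoly
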