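import Mathlib
import Fermat.Agent.Lib.DivPoly.Universal

/-!
# Multiplication by `n` on abscissas via Mathlib's division polynomials

For a nonsingular point `P = (x, y)` of a Weierstrass curve `E` over a field (any characteristic,
no hypothesis on the discriminant) and every `n`:

* `n • P = 0 ↔ (E.ΨSq n).eval x = 0`;
* if `n • P ≠ 0` then `x(n • P) * (E.ΨSq n).eval x = (E.Φ n).eval x`;
* `(E.Φ n).eval x` and `(E.ΨSq n).eval x` do not vanish simultaneously.
-/

set_option autoImplicit false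

namespace Fermat.Agent.Lib.DivPoly

open WeierstrassCurve WeierstrassCurve.Affine Polynomial

section Algebra

variable {K : Type*} [Field K]

lemma mulx_case_a (b₂ b₄ b₆ x Ap A Am Bp B Bm : K)
    (I1 : Ap * Bm + Am * Bp
      = 2 * x * A ^ 2 + (2 * x ^ 2 + b₂ * x + b₄) * (A * B) + (b₄ * x + b₆) * B ^ 2)
    (I3 : (A - x * B) ^ 2 = Bp * Bm)
    (hB : B = 0) (hA : A ≠ 0) (hBm : Bm ≠ 0) (hAm : x * Bm = Am) :
    Bp ≠ 0 ∧ x * Bp = Ap := by
  subst hB
  have hBp : Bp ≠ 0 := by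
    intro h0
    rw [h0, zero_mul, mul_zero, sub_zero] at I3
    exact hA (pow_eq_zero_iff (n := 2) (by norm_num) |>.mp I3)
  refine ⟨hBp, ?_⟩
  apply mul_left_cancel₀ hBm
  linear_combination (-1 : K) * I1 - Bp * hAm - 2 * x * I3

lemma mulx_case_b (b₂ b₄ b₆ x X Xp Xm Ap A Am Bp B Bm : K)
    (I1 : Ap * Bm + Am * Bp
      = 2 * x * A ^ 2 + (2 * x ^ 2 + b₂ * x + b₄) * (A * B) + (b₄ * x + b₆) * B ^ 2)
    (I3 : (A - x * B) ^ 2 = Bp * Bm)
    (hB : B ≠ 0) (hA : X * B = A) (hXx : X ≠ x) (hBm : Bm ≠ 0) (hAm : Xm * Bm = Am)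
    (hS : (Xp + Xm) * (X - x) ^ 2 = 2 * X * x * (X + x) + b₂ * X * x + b₄ * (X + x) + b₆) :
    Bp ≠ 0 ∧ Xp * Bp = Ap := by
  subst hA hAm
  have hBp : Bp ≠ 0 := by
    intro h0
    rw [h0, zero_mul] at I3
    have h1 : X * B - x * B = 0 := pow_eq_zero_iff (n := 2) (by norm_num) |>.mp I3
    have h2 : (X - x) * B = 0 := by linear_combination h1
    rcases mul_eq_zero.mp h2 with h3 | h3
    · exact hXx (sub_eq_zero.mp h3)
    · exact hB h3
  refine ⟨hBp, ?_⟩
  apply mul_left_cancel₀ hBm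
  linear_combination (-(Xp + Xm)) * I3 + B ^ 2 * hS - I1

lemma mulx_case_c (b₂ b₄ b₆ b₈ x Ap A Am Bp B Bm : K)
    (I1 : Ap * Bm + Am * Bp
      = 2 * x * A ^ 2 + (2 * x ^ 2 + b₂ * x + b₄) * (A * B) + (b₄ * x + b₆) * B ^ 2)
    (I2 : Ap * Am
      = x ^ 2 * A ^ 2 - b₄ * x * (A * B) - b₆ * ((A + x * B) * B) - b₈ * B ^ 2)
    (hBm : Bm = 0) (hA : x * B = A) :
    Am * Bp = B ^ 2 * (4 * x ^ 3 + b₂ * x ^ 2 + 2 * b₄ * x + b₆) ∧
      Ap * Am = B ^ 2 * (x ^ 4 - b₄ * x ^ 2 - 2 * b₆ * x - b₈) := by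
  subst hBm hA
  constructor
  · linear_combination I1
  · linear_combination I2

lemma mulx_case_d (b₂ b₄ b₆ x Ap A Am Bp B Bm : K)
    (I1 : Ap * Bm + Am * Bp
      = 2 * x * A ^ 2 + (2 * x ^ 2 + b₂ * x + b₄) * (A * B) + (b₄ * x + b₆) * B ^ 2)
    (I3 : (A - x * B) ^ 2 = Bp * Bm)
    (hB : B ≠ 0) (hA : x * B = A) (hBm : Bm ≠ 0)
    (hM : 4 * x ^ 3 + b₂ * x ^ 2 + 2 * b₄ * x + b₆ ≠ 0) :
    Bp = 0 ∧ Ap ≠ 0 := by
  subst hA
  have hBp : Bp = 0 := by
    rw [sub_self, zero_pow (by norm_num)] at I3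
    rcases mul_eq_zero.mp I3.symm with h0 | h0
    · exact h0
    · exact absurd h0 hBm
  refine ⟨hBp, ?_⟩
  subst hBp
  intro hAp
  subst hAp
  have : B ^ 2 * (4 * x ^ 3 + b₂ * x ^ 2 + 2 * b₄ * x + b₆) = 0 := by linear_combination -I1
  rcases mul_eq_zero.mp this with h0 | h0
  · exact hB (pow_eq_zero_iff (n := 2) (by norm_num) |>.mp h0)
  · exact hM h0

end Algebra

section MulX

variable {F : Type*} [Field F] [DecidableEq F] (E : WeierstrassCurve.Affine F)
  {x y : F} (h : E.Nonsingular x y)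

/-- The statement of the multiplication-by-`n` formula at a fixed point. -/
def MulXClaim (n : ℕ) : Prop :=
  (n • Point.some x y h = 0 ↔ (E.ΨSq n).eval x = 0) ∧
  (n • Point.some x y h ≠ 0 →
    xc E (n • Point.some x y h) * (E.ΨSq n).eval x = (E.Φ n).eval x) ∧
  ¬ ((E.Φ n).eval x = 0 ∧ (E.ΨSq n).eval x = 0)

lemma mulXClaim_zero : MulXClaim E h 0 := by
  refine ⟨?_, ?_, ?_⟩
  · simp
  · intro h0; exact absurd (zero_nsmul _) h0
  · simp

lemma mulXClaim_one : MulXClaim E h 1 := by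
  refine ⟨?_, ?_, ?_⟩
  · simp [Point.some_ne_zero]
  · intro _; simp
  · simp

lemma mulXClaim_step (j : ℕ) (hj : MulXClaim E h j) (hj1 : MulXClaim E h (j + 1)) :
    MulXClaim E h (j + 2) := by
  obtain ⟨hj_iff, hj_x, hj_nb⟩ := hj
  obtain ⟨hj1_iff, hj1_x, hj1_nb⟩ := hj1
  have hPne : Point.some x y h ≠ 0 := Point.some_ne_zero h
  have hQp : (j + 2) • Point.some x y h = (j + 1) • Point.some x y h + Point.some x y h :=
    succ_nsmul _ _
  have hQm : j • Point.some x y h = (j + 1) • Point.some x y h - Point.some x y h := by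
    rw [succ_nsmul]; abel
  have e1 : ((j + 1 : ℕ) : ℤ) + 1 = ((j + 2 : ℕ) : ℤ) := by push_cast; ring
  have e2 : ((j + 1 : ℕ) : ℤ) - 1 = (j : ℤ) := by push_cast; ring
  have I1 := congrArg (eval x) (Φ_mul_ΨSq_add E ((j + 1 : ℕ) : ℤ))
  have I2 := congrArg (eval x) (Φ_mul_Φ E ((j + 1 : ℕ) : ℤ))
  have I3 := congrArg (eval x) (Φ_sub_sq E ((j + 1 : ℕ) : ℤ))
  rw [e1, e2] at I1 I2 I3
  simp only [eval_add, eval_sub, eval_mul, eval_pow, eval_X, eval_C, eval_ofNat] at I1 I2 I3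
  unfold MulXClaim
  by_cases hQ0 : (j + 1) • Point.some x y h = 0
  · -- case (a): `(j+1) • P = 0`
    have hm : j • Point.some x y h = -Point.some x y h := by rw [hQm, hQ0, zero_sub]
    have hp : (j + 2) • Point.some x y h = Point.some x y h := by rw [hQp, hQ0, zero_add]
    have hmne : j • Point.some x y h ≠ 0 := by rw [hm]; exact neg_ne_zero.mpr hPne
    have hBm : (E.ΨSq j).eval x ≠ 0 := fun h0 => hmne (hj_iff.mpr h0)
    have hAm := hj_x hmne
    rw [hm, xc_neg, xc_some] at hAm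
    have hB : (E.ΨSq ((j + 1 : ℕ) : ℤ)).eval x = 0 := hj1_iff.mp hQ0
    have hA : (E.Φ ((j + 1 : ℕ) : ℤ)).eval x ≠ 0 := fun h0 => hj1_nb ⟨h0, hB⟩
    obtain ⟨hBp, hAp⟩ := mulx_case_a _ _ _ _ _ _ _ _ _ _ I1 I3 hB hA hBm hAm
    rw [hp]
    exact ⟨iff_of_false hPne hBp, fun _ => by rw [xc_some]; exact hAp, fun hh => hBp hh.2⟩
  · have hB : (E.ΨSq ((j + 1 : ℕ) : ℤ)).eval x ≠ 0 := fun h0 => hQ0 (hj1_iff.mpr h0)
    have hA := hj1_x hQ0
    by_cases hXx : xc E ((j + 1) • Point.some x y h) = x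
    · rcases (xc_eq_iff E hQ0 hPne).mp hXx with hQP | hQP
      · -- case (c): `(j+1) • P = P`
        have hm : j • Point.some x y h = 0 := by rw [hQm, hQP, sub_self]
        have hp : (j + 2) • Point.some x y h = (2 : ℕ) • Point.some x y h := by
          rw [hQp, hQP, two_nsmul]
        have hBm : (E.ΨSq j).eval x = 0 := hj_iff.mp hm
        have hAm : (E.Φ j).eval x ≠ 0 := fun h0 => hj_nb ⟨h0, hBm⟩
        rw [hXx] at hA
        obtain ⟨c1, c2⟩ := mulx_case_c _ _ _ _ _ _ _ _ _ _ _ I1 I2 hBm hA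
        have hM : 4 * x ^ 3 + E.b₂ * x ^ 2 + 2 * E.b₄ * x + E.b₆ = dblDen E x := rfl
        have hNm : x ^ 4 - E.b₄ * x ^ 2 - 2 * E.b₆ * x - E.b₈ = dblNum E x := rfl
        rw [hM] at c1
        rw [hNm] at c2
        have hB2 : (E.ΨSq ((j + 1 : ℕ) : ℤ)).eval x ^ 2 ≠ 0 := pow_ne_zero 2 hB
        rw [hp]
        refine ⟨?_, ?_, ?_⟩
        · rw [two_nsmul_eq_zero_iff]
          constructor
          · intro h0
            rw [h0, mul_zero] at c1
            exact (mul_eq_zero.mp c1).resolve_left hAm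
          · intro h0
            rw [h0, mul_zero] at c1
            exact (mul_eq_zero.mp c1.symm).resolve_left hB2
        · intro h2
          have hd := xc_two_nsmul E h h2
          apply mul_left_cancel₀ hAm
          linear_combination (xc E ((2 : ℕ) • Point.some x y h)) * c1 - c2
            + (E.ΨSq ((j + 1 : ℕ) : ℤ)).eval x ^ 2 * hd
        · rintro ⟨hAp, hBp⟩
          rw [hBp, mul_zero] at c1
          rw [hAp, zero_mul] at c2
          exact dbl_not_both_zero E h ⟨(mul_eq_zero.mp c1.symm).resolve_left hB2,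
            (mul_eq_zero.mp c2.symm).resolve_left hB2⟩
      · -- case (d): `(j+1) • P = -P`
        by_cases h2 : (2 : ℕ) • Point.some x y h = 0
        · -- then `-P = P`, which is case (c) again
          have hQP' : (j + 1) • Point.some x y h = Point.some x y h := by
            rw [hQP, neg_eq_iff_add_eq_zero, ← two_nsmul]; exact h2
          have hm : j • Point.some x y h = 0 := by rw [hQm, hQP', sub_self]
          have hp : (j + 2) • Point.some x y h = (2 : ℕ) • Point.some x y h := by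
            rw [hQp, hQP', two_nsmul]
          have hBm : (E.ΨSq j).eval x = 0 := hj_iff.mp hm
          have hAm : (E.Φ j).eval x ≠ 0 := fun h0 => hj_nb ⟨h0, hBm⟩
          rw [hXx] at hA
          obtain ⟨c1, c2⟩ := mulx_case_c _ _ _ _ _ _ _ _ _ _ _ I1 I2 hBm hA
          have hM : 4 * x ^ 3 + E.b₂ * x ^ 2 + 2 * E.b₄ * x + E.b₆ = dblDen E x := rfl
          have hNm : x ^ 4 - E.b₄ * x ^ 2 - 2 * E.b₆ * x - E.b₈ = dblNum E x := rfl
          rw [hM] at c1
          rw [hNm] at c2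
          have hB2 : (E.ΨSq ((j + 1 : ℕ) : ℤ)).eval x ^ 2 ≠ 0 := pow_ne_zero 2 hB
          have hM0 : dblDen E x = 0 := (two_nsmul_eq_zero_iff E h).mp h2
          rw [hM0, mul_zero] at c1
          have hBp : (E.ΨSq ((j + 2 : ℕ) : ℤ)).eval x = 0 :=
            (mul_eq_zero.mp c1).resolve_left hAm
          rw [hp]
          refine ⟨iff_of_true h2 hBp, fun h2' => absurd h2 h2', ?_⟩
          rintro ⟨hAp, -⟩
          rw [hAp, zero_mul] at c2
          exact dbl_not_both_zero E h ⟨hM0, (mul_eq_zero.mp c2.symm).resolve_left hB2⟩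
        · have hm : j • Point.some x y h = -((2 : ℕ) • Point.some x y h) := by
            rw [hQm, hQP, two_nsmul]; abel
          have hp : (j + 2) • Point.some x y h = 0 := by rw [hQp, hQP, neg_add_cancel]
          have hmne : j • Point.some x y h ≠ 0 := by rw [hm]; exact neg_ne_zero.mpr h2
          have hBm : (E.ΨSq j).eval x ≠ 0 := fun h0 => hmne (hj_iff.mpr h0)
          rw [hXx] at hA
          have hM : dblDen E x ≠ 0 := fun h0 => h2 ((two_nsmul_eq_zero_iff E h).mpr h0)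
          obtain ⟨hBp, hAp⟩ := mulx_case_d _ _ _ _ _ _ _ _ _ _ I1 I3 hB hA hBm hM
          exact ⟨iff_of_true hp hBp, fun hp' => absurd hp hp', fun hh => hAp hh.1⟩
    · -- case (b): `(j+1) • P ≠ 0, ± P`
      have hmne : j • Point.some x y h ≠ 0 := by
        intro h0
        apply hXx
        have : (j + 1) • Point.some x y h = Point.some x y h := by
          rw [succ_nsmul, h0, zero_add]
        rw [this, xc_some]
      have hpne : (j + 2) • Point.some x y h ≠ 0 := by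
        intro h0
        apply hXx
        have : (j + 1) • Point.some x y h = -Point.some x y h := by
          rw [eq_neg_iff_add_eq_zero, ← hQp]; exact h0
        rw [this, xc_neg, xc_some]
      have hBm : (E.ΨSq j).eval x ≠ 0 := fun h0 => hmne (hj_iff.mpr h0)
      have hAm := hj_x hmne
      have hS := xc_nsmul_sumForm E hPne (j := j) hQ0 (by rw [xc_some]; exact hXx)
      simp only [sumForm, xc_some] at hS
      obtain ⟨hBp, hAp⟩ := mulx_case_b _ _ _ _ _ _ _ _ _ _ _ _ _ I1 I3 hB hA hXx hBm hAm hS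
      exact ⟨iff_of_false hpne hBp, fun _ => hAp, fun hh => hBp hh.2⟩

/-- The multiplication-by-`n` formula at a fixed point, for all `n`. -/
theorem mulXClaim (n : ℕ) : MulXClaim E h n := by
  have key : ∀ n, MulXClaim E h n ∧ MulXClaim E h (n + 1) := by
    intro n
    induction n with
    | zero => exact ⟨mulXClaim_zero E h, mulXClaim_one E h⟩
    | succ n ih => exact ⟨ih.2, mulXClaim_step E h n ih.1 ih.2⟩
  exact (key n).1

/-- **(M1)** `n • P = 0` iff the abscissa of `P` is a root of `ΨSq_n`. -/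
theorem nsmul_eq_zero_iff (n : ℕ) :
    n • Point.some x y h = 0 ↔ (E.ΨSq n).eval x = 0 :=
  (mulXClaim E h n).1

/-- **(M2)** `x(n • P) * ΨSq_n(x) = Φ_n(x)` whenever `n • P ≠ 0`. -/
theorem xc_nsmul_mul_eval_ΨSq (n : ℕ) (hn : n • Point.some x y h ≠ 0) :
    xc E (n • Point.some x y h) * (E.ΨSq n).eval x = (E.Φ n).eval x :=
  (mulXClaim E h n).2.1 hn

/-- **(M2')** the same with the multiple given in coordinates. -/
theorem nsmul_eq_some (n : ℕ) {x' y' : F} {h' : E.Nonsingular x' y'}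
    (hn : n • Point.some x y h = Point.some x' y' h') :
    x' * (E.ΨSq n).eval x = (E.Φ n).eval x := by
  have := xc_nsmul_mul_eval_ΨSq E h n (by rw [hn]; exact Point.some_ne_zero h')
  rwa [hn, xc_some] at this

include h in
/-- **(M3)** `Φ_n` and `ΨSq_n` have no common root among the abscissas of nonsingular points. -/
theorem eval_Φ_ΨSq_not_both_zero (n : ℕ) :
    ¬ ((E.Φ n).eval x = 0 ∧ (E.ΨSq n).eval x = 0) :=
  (mulXClaim E h n).2.2

end MulX

end Fermat.Agent.Lib.DivPoly
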