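import Mathlib
import Fermat.Agent.Lib.DivPoly.MulX
import Fermat.Agent.Lib.TorsionCount

/-!
# The number of `n`-torsion points in every characteristic prime to `n`

Combining the multiplication-by-`n` formula for Mathlib's division polynomials with the generic
count step of `Fermat.Agent.Lib.TorsionCount`, we get `#E[n] = n²` over every algebraically closed
field in which `n ≠ 0`.
-/

set_option autoImplicit false

namespace Fermat.Agent.Lib.DivPoly

open WeierstrassCurve WeierstrassCurve.Affine Polynomial

section Count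

variable {K : Type*} [Field K] [IsAlgClosed K] [DecidableEq K] (W : WeierstrassCurve.Affine K)

omit [DecidableEq K] in
/-- Every element of an algebraically closed field is the abscissa of a nonsingular point of an
elliptic curve. -/
lemma exists_nonsingular_of_Δ_ne_zero (hΔ : W.Δ ≠ 0) (x : K) : ∃ y : K, W.Nonsingular x y := by
  obtain ⟨y, hy⟩ := Fermat.Agent.Lib.TorsionCount.exists_equation W x
  exact ⟨y, (W.equation_iff_nonsingular_of_Δ_ne_zero hΔ).mp hy⟩

/-- **The `n`-torsion of an elliptic curve over an algebraically closed field in which `n ≠ 0`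
has exactly `n²` points** (any characteristic). -/
theorem card_torsionBy_of_natCast_ne_zero (hΔ : W.Δ ≠ 0) (n : ℕ) (hn : (n : K) ≠ 0) :
    Nat.card (Submodule.torsionBy ℤ W.Point n) = n ^ 2 := by
  have hn0 : 0 < n := Nat.pos_of_ne_zero (by rintro rfl; simp at hn)
  have hn2 : 1 ≤ n ^ 2 := Nat.one_le_pow _ _ hn0
  refine Fermat.Agent.Lib.TorsionCount.card_torsionBy_of_xMap' W hΔ n hn0 (W.Φ n) (W.ΨSq n)
    ?_ ?_ ?_ ?_ ?_ ?_
  · rw [natDegree_Φ, Int.natAbs_natCast]
  · have := W.natDegree_ΨSq_le (n : ℤ)
    rw [Int.natAbs_natCast] at this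
    omega
  · intro hd
    have h1 := congrArg (fun p : K[X] => p.coeff (n ^ 2 - 1)) hd
    simp only [coeff_derivative, coeff_zero] at h1
    have hc := W.coeff_Φ (n : ℤ)
    rw [Int.natAbs_natCast] at hc
    rw [show n ^ 2 - 1 + 1 = n ^ 2 by omega, hc, one_mul] at h1
    have h2 : ((n ^ 2 - 1 : ℕ) : K) + 1 = ((n ^ 2 : ℕ) : K) := by
      rw [← Nat.cast_add_one]; congr 1; omega
    rw [h2, Nat.cast_pow] at h1
    exact hn (pow_eq_zero_iff (n := 2) (by norm_num) |>.mp h1)
  · intro x
    obtain ⟨y, hy⟩ := exists_nonsingular_of_Δ_ne_zero W hΔ x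
    exact eval_Φ_ΨSq_not_both_zero W hy n
  · intro x y h
    exact nsmul_eq_zero_iff W h n
  · intro x y h x' y' h' hn'
    exact nsmul_eq_some W h n hn'

end Count

end Fermat.Agent.Lib.DivPoly
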