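import Mathlib
import Fermat.Agent.Lib.DivPoly.PrimeTorsion
import Fermat.Agent.Lib.LevelZero
import Fermat.Agent.S13.LocalP

/-!
# The division-polynomial input `DP P` of the local analysis at `p` for the Frey curve

The `p`-th division polynomial `preΨ' p` of the integral model `P.freyCurveInt` is an integer
polynomial with leading coefficient `p` vanishing at the abscissas of all nonzero `p`-torsion
points of the Frey curve over `ℚ̄`.
-/

set_option autoImplicit false

namespace Fermat.Agent.Lib.DivPoly

open WeierstrassCurve WeierstrassCurve.Affine Polynomial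

/-- The Frey curve over any field extension of `ℚ` is the base change of its integral model. -/
lemma freyCurve_baseChange_eq (P : FreyPackage) (K : Type*) [Field K] [Algebra ℚ K] :
    (P.freyCurve⁄K) = (P.freyCurveInt⁄K) := by
  show P.freyCurve.map (algebraMap ℚ K) = P.freyCurveInt.map (algebraMap ℤ K)
  rw [← Fermat.Agent.Lib.LevelZero.freyCurveInt_map, WeierstrassCurve.map_map]
  congr 1
  exact RingHom.ext_int _ _

/-- For every nonsingular point `(x, y)` of the Frey curve over a field `K ⊇ ℚ` which is killed
by `p`, the abscissa `x` is a root of the integral division polynomial. -/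
theorem frey_aeval_preΨ'_eq_zero (P : FreyPackage) {K : Type*} [Field K] [Algebra ℚ K]
    [DecidableEq K] {x y : K} (h : (P.freyCurve⁄K).toAffine.Nonsingular x y)
    (hT : P.p • (Point.some x y h : (P.freyCurve⁄K).toAffine.Point) = 0) :
    aeval x (P.freyCurveInt.preΨ' P.p) = 0 := by
  have hp2 : P.p ≠ 2 := by have := P.hp5; omega
  have key := eval_preΨ'_eq_zero_of_prime_nsmul (P.freyCurve⁄K).toAffine h P.pp hp2 hT
  rw [freyCurve_baseChange_eq P K, show (P.freyCurveInt⁄K) = P.freyCurveInt.map (algebraMap ℤ K)
    from rfl, map_preΨ', eval_map] at key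
  rw [aeval_def]
  exact key

/-- The leading coefficient of the integral `p`-th division polynomial of the Frey curve. -/
theorem frey_leadingCoeff_preΨ' (P : FreyPackage) :
    (P.freyCurveInt.preΨ' P.p).leadingCoeff = (P.p : ℤ) :=
  leadingCoeff_preΨ'_of_odd P.freyCurveInt P.hp_odd (by exact_mod_cast P.hp0)

/-- The division-polynomial input of `Fermat.Agent.S13.LocalP.inertia_dichotomy`. -/
theorem frey_DP (P : FreyPackage) : Fermat.Agent.S13.LocalP.DP P := by
  refine ⟨P.freyCurveInt.preΨ' P.p, Or.inl (frey_leadingCoeff_preΨ' P), ?_⟩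
  intro T hT0 hT
  rcases T with _ | ⟨x, y, h⟩
  · exact absurd rfl hT0
  · exact frey_aeval_preΨ'_eq_zero P h hT

end Fermat.Agent.Lib.DivPoly
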