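import Mathlib
import Fermat.Agent.Lib.DivPoly.Count

/-!
# Odd torsion and the roots of `preΨ' n`

For odd `n`, the polynomial `W.preΨ' n` (Mathlib's univariate `n`-th division polynomial) cuts out
exactly the abscissas of the nonzero `n`-torsion points:

* `nsmul_eq_zero_iff_preΨ'`: `n • (x, y) = 0 ↔ (E.preΨ' n).eval x = 0` (any field, any
  characteristic, `n` odd);
* `nsmul_eq_zero_iff_preΨ'_of_even`: the analogous statement for even `n`;
* `card_roots_preΨ'`: over an algebraically closed field in which `n ≠ 0`, `preΨ' n` has exactly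
  `(n² - 1) / 2` distinct roots;
* `separable_preΨ'`: over any field in which `n ≠ 0` (`n` odd), if `Δ ≠ 0` then `preΨ' n` is
  separable.
-/

set_option autoImplicit false

namespace Fermat.Agent.Lib.DivPoly

open WeierstrassCurve WeierstrassCurve.Affine Polynomial

section OddTorsion

variable {F : Type*} [Field F] [DecidableEq F] (E : WeierstrassCurve.Affine F)

/-- For odd `n`: `n • P = 0` iff the abscissa of `P` is a root of `preΨ' n`. -/
theorem nsmul_eq_zero_iff_preΨ' {x y : F} (h : E.Nonsingular x y) {n : ℕ} (hn : Odd n) :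
    n • Point.some x y h = 0 ↔ (E.preΨ' n).eval x = 0 := by
  rw [nsmul_eq_zero_iff E h n, ΨSq_ofNat, if_neg (Nat.not_even_iff_odd.mpr hn), mul_one, eval_pow]
  exact pow_eq_zero_iff (by norm_num)

/-- For even `n`: `n • P = 0` iff the abscissa of `P` is a root of `preΨ' n` or of `Ψ₂Sq`. -/
theorem nsmul_eq_zero_iff_preΨ'_of_even {x y : F} (h : E.Nonsingular x y) {n : ℕ} (hn : Even n) :
    n • Point.some x y h = 0 ↔ (E.preΨ' n).eval x = 0 ∨ (E.Ψ₂Sq).eval x = 0 := by
  rw [nsmul_eq_zero_iff E h n, ΨSq_ofNat, if_pos hn, eval_mul, eval_pow, mul_eq_zero]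
  exact or_congr (pow_eq_zero_iff (by norm_num)) Iff.rfl

/-- A point killed by an odd integer is not killed by `2` unless it is zero. -/
lemma eq_zero_of_odd_nsmul_of_eq_neg {P : E.Point} {n : ℕ} (hn : Odd n) (hP : n • P = 0)
    (h2 : P = -P) : P = 0 := by
  obtain ⟨k, rfl⟩ := hn
  have h2' : (2 : ℕ) • P = 0 := by
    rw [two_nsmul]
    nth_rewrite 1 [h2]
    exact neg_add_cancel P
  rw [add_nsmul, mul_nsmul, h2', nsmul_zero, zero_add, one_nsmul] at hP
  exact hP

end OddTorsion

section Count

variable {K : Type*} [Field K] [IsAlgClosed K] (W : WeierstrassCurve.Affine K)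

/-- **Over an algebraically closed field in which the odd integer `n` is nonzero, the division
polynomial `preΨ' n` of an elliptic curve has exactly `(n² - 1) / 2` distinct roots.** -/
theorem card_roots_preΨ' (hΔ : W.Δ ≠ 0) {n : ℕ} (hn : Odd n) (hnK : (n : K) ≠ 0) :
    Nat.card {x : K // (W.preΨ' n).eval x = 0} = (n ^ 2 - 1) / 2 := by
  classical
  have hT := card_torsionBy_of_natCast_ne_zero W hΔ n hnK
  have hn0 : 0 < n := Nat.pos_of_ne_zero (by rintro rfl; simp at hnK)
  have hn2 : 1 ≤ n ^ 2 := Nat.one_le_pow _ _ hn0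
  -- choose an ordinate over every root
  have hex : ∀ x : {x : K // (W.preΨ' n).eval x = 0}, ∃ y : K, W.Nonsingular x.1 y :=
    fun x => exists_nonsingular_of_Δ_ne_zero W hΔ x.1
  choose yy hyy using hex
  let pt : {x : K // (W.preΨ' n).eval x = 0} → W.Point := fun x => Point.some x.1 (yy x) (hyy x)
  have hpt_tors : ∀ x, n • pt x = 0 := fun x => (nsmul_eq_zero_iff_preΨ' W (hyy x) hn).mpr x.2
  have hpt_ne : ∀ x, pt x ≠ 0 := fun x => Point.some_ne_zero (hyy x)
  have hpt_xc : ∀ x, xc W (pt x) = x.1 := fun x => rfl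
  let φ : {x : K // (W.preΨ' n).eval x = 0} × Bool → W.Point :=
    fun p => if p.2 then pt p.1 else -pt p.1
  have hφ_xc : ∀ p, xc W (φ p) = p.1.1 := by
    rintro ⟨x, b⟩
    cases b
    · simp only [φ, Bool.false_eq_true, if_false, xc_neg, hpt_xc]
    · simp only [φ, if_true, hpt_xc]
  have hφ_inj : Function.Injective φ := by
    rintro ⟨x, b⟩ ⟨x', b'⟩ hpp
    have hx : x = x' := by
      apply Subtype.ext
      have := congrArg (xc W) hpp
      rwa [hφ_xc, hφ_xc] at this
    subst hx
    have hb : b = b' := by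
      by_contra hbb
      have hneg : pt x = -pt x := by
        cases b <;> cases b'
        · exact absurd rfl hbb
        · simp only [φ, Bool.false_eq_true, if_false, if_true] at hpp
          exact hpp.symm
        · simp only [φ, Bool.false_eq_true, if_false, if_true] at hpp
          exact hpp
        · exact absurd rfl hbb
      exact hpt_ne x (eq_zero_of_odd_nsmul_of_eq_neg W hn (hpt_tors x) hneg)
    rw [hb]
  have hrange : Set.range φ = (Submodule.torsionBy ℤ W.Point n : Set W.Point) \ {0} := by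
    ext P
    simp only [Set.mem_range, Set.mem_sdiff, SetLike.mem_coe, Submodule.mem_torsionBy_iff,
      Set.mem_singleton_iff, natCast_zsmul]
    constructor
    · rintro ⟨⟨x, b⟩, rfl⟩
      cases b
      · simp only [φ, Bool.false_eq_true, if_false]
        exact ⟨by rw [smul_neg, hpt_tors, neg_zero], neg_ne_zero.mpr (hpt_ne x)⟩
      · simp only [φ, if_true]
        exact ⟨hpt_tors x, hpt_ne x⟩
    · rintro ⟨hP, hP0⟩
      obtain ⟨x, y, h, rfl⟩ := Fermat.Agent.Lib.TorsionCount.exists_some W hP0
      have hroot : (W.preΨ' n).eval x = 0 := (nsmul_eq_zero_iff_preΨ' W h hn).mp hP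
      rcases Fermat.Agent.Lib.TorsionCount.eq_or_eq_neg_of_x_eq W h (hyy ⟨x, hroot⟩) with h1 | h1
      · exact ⟨(⟨x, hroot⟩, true), by simp only [φ, if_true]; exact h1.symm⟩
      · exact ⟨(⟨x, hroot⟩, false), by
          simp only [φ, Bool.false_eq_true, if_false]; exact h1.symm⟩
  have h1 : Nat.card (Set.range φ) = 2 * Nat.card {x : K // (W.preΨ' n).eval x = 0} := by
    rw [Nat.card_range_of_injective hφ_inj, Nat.card_prod, Nat.card_eq_fintype_card (α := Bool),
      Fintype.card_bool, mul_comm]
  have h2 : Nat.card (Set.range φ) = n ^ 2 - 1 := by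
    rw [hrange, Nat.card_coe_set_eq,
      Set.ncard_sdiff_singleton_of_mem (Submodule.zero_mem _), ← Nat.card_coe_set_eq]
    exact congrArg (· - 1) hT
  omega

/-- Over an algebraically closed field in which the odd integer `n` is nonzero, the division
polynomial `preΨ' n` of an elliptic curve has no repeated root. -/
theorem nodup_roots_preΨ' (hΔ : W.Δ ≠ 0) {n : ℕ} (hn : Odd n) (hnK : (n : K) ≠ 0) :
    (W.preΨ' n).roots.Nodup := by
  classical
  have hne : W.preΨ' n ≠ 0 := W.preΨ'_ne_zero hnK
  have hcard := card_roots_preΨ' W hΔ hn hnK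
  have hdeg : (W.preΨ' n).natDegree = (n ^ 2 - 1) / 2 := by
    rw [W.natDegree_preΨ' hnK, if_neg (Nat.not_even_iff_odd.mpr hn)]
  have h1 : Nat.card {x : K // (W.preΨ' n).eval x = 0}
      = Nat.card {x : K // x ∈ (W.preΨ' n).roots.toFinset} := by
    apply Nat.card_congr
    apply Equiv.subtypeEquivRight
    intro x
    rw [Multiset.mem_toFinset, mem_roots hne, IsRoot.def]
  rw [h1, Nat.card_eq_fintype_card, Fintype.card_coe, ← hdeg,
    (IsAlgClosed.splits (W.preΨ' n)).natDegree_eq_card_roots] at hcard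
  exact Multiset.toFinset_card_eq_card_iff_nodup.mp hcard

end Count

section Separable

variable {F : Type*} [Field F] (W : WeierstrassCurve.Affine F)

/-- **For an elliptic curve over a field in which the odd integer `n` is nonzero, the division
polynomial `preΨ' n` is separable.** -/
theorem separable_preΨ' (hΔ : W.Δ ≠ 0) {n : ℕ} (hn : Odd n) (hnF : (n : F) ≠ 0) :
    (W.preΨ' n).Separable := by
  let K := AlgebraicClosure F
  let f : F →+* K := algebraMap F K
  have hΔ' : (W.map f).Δ ≠ 0 := by
    rw [WeierstrassCurve.map_Δ]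
    exact (map_ne_zero f).mpr hΔ
  have hnK : (n : K) ≠ 0 := by
    rw [← map_natCast f n]
    exact (map_ne_zero f).mpr hnF
  have hnd := nodup_roots_preΨ' (W.map f) hΔ' hn hnK
  have hne : (W.map f).preΨ' n ≠ 0 := (W.map f).preΨ'_ne_zero hnK
  have hsep := (nodup_roots_iff_of_splits hne (IsAlgClosed.splits _)).mp hnd
  rw [WeierstrassCurve.map_preΨ'] at hsep
  exact (separable_map f).mp hsep

end Separable

end Fermat.Agent.Lib.DivPoly
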